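import Fermat.Agent.LT.Local.Identities

/-!
# Matrices of order two with surjective residual image

A matrix orthogonal to all the values of such a representation is zero; a representation whose
inertia fixes a nonzero row is triangular on every element normalising inertia.
-/

set_option autoImplicit false

noncomputable section

open Matrix

namespace Fermat.Agent.LT.AtTwo

open Fermat.Agent.LT.Deform (M2 entryIdx)

section Gram

variable {G : Type*} [Group G]

/-- The matrices of four elements, transposed and flattened. -/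
def flatT {R : Type*} (X : Fin 4 → M2 R) : Matrix (Fin 4) (Fin 4) R :=
  Matrix.of fun i j => X i (entryIdx j).2
    (entryIdx j).1

/-- The matrices of four elements, flattened in columns. -/
def flatC {R : Type*} (X : Fin 4 → M2 R) : Matrix (Fin 4) (Fin 4) R :=
  Matrix.of fun j i => X i (entryIdx j).1
    (entryIdx j).2

/-- The matrix of the traces of the products. -/
def gram {R : Type*} [CommRing R] (X : Fin 4 → M2 R) : Matrix (Fin 4) (Fin 4) R :=
  Matrix.of fun i j => (X i * X j).trace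

theorem flatT_mul_flatC {R : Type*} [CommRing R] (X : Fin 4 → M2 R) :
    flatT X * flatC X = gram X := by
  ext i j
  rw [Matrix.mul_apply]
  simp [flatT, flatC, gram, entryIdx, Matrix.trace, Matrix.mul_apply, Fin.sum_univ_four,
    Fin.sum_univ_two]
  ring

theorem eq_zero_of_gram {R : Type*} [CommRing R] [IsDomain R] (X : Fin 4 → M2 R)
    (hX : (gram X).det ≠ 0) {Y : M2 R} (hY : ∀ i, (X i * Y).trace = 0) : Y = 0 := by
  have hdet : (flatT X).det ≠ 0 := fun h => hX (by
    rw [← flatT_mul_flatC, det_mul, h, zero_mul])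
  have h := Matrix.eq_zero_of_mulVec_eq_zero hdet
    (v := fun j => Y (entryIdx j).1
      (entryIdx j).2) (funext fun i => by
    have e := hY i
    simp [Matrix.trace, Matrix.mul_apply, Fin.sum_univ_two] at e
    simp [flatT, entryIdx, Matrix.mulVec, dotProduct, Fin.sum_univ_four]
    linear_combination e)
  ext a b
  fin_cases a <;> fin_cases b
  exacts [congrFun h 0, congrFun h 1, congrFun h 2, congrFun h 3]

/-- Four units of `M2 (ZMod 2)` forming a basis. -/
def four : Fin 4 → M2 (ZMod 2) :=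
  ![!![1, 0; 0, 1], !![1, 1; 0, 1], !![1, 0; 1, 1], !![0, 1; 1, 1]]

theorem gram_four : (gram four).det ≠ 0 := by
  have : (flatT four * flatC four).det ≠ 0 := by
    rw [det_mul]
    decide
  rwa [flatT_mul_flatC] at this

theorem isUnit_four (i : Fin 4) : IsUnit (four i) := by
  rw [Matrix.isUnit_iff_isUnit_det, isUnit_iff_ne_zero]
  revert i
  decide

variable {r : G →* (M2 (ZMod 2))ˣ} (hr : Function.Surjective r)

include hr in
/-- Four elements with residual images spanning. -/
theorem exists_four : ∃ g : Fin 4 → G, ∀ i, (r (g i) : M2 (ZMod 2)) = four i := by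
  choose g hg using fun i => hr (isUnit_four i).unit
  exact ⟨g, fun i => by rw [hg i]; rfl⟩

include hr in
/-- A matrix orthogonal to the values of a representation with residual traces those of `r`. -/
theorem eq_zero_of_trace {S : Type*} [CommRing S] [IsDomain S] [IsLocalRing S]
    (h2 : (2 : S) ∈ IsLocalRing.maximalIdeal S) {ρ : G →* M2 S}
    (hres : ∀ g, (ρ g).trace - ((r g : M2 (ZMod 2)).trace.val : S) ∈ IsLocalRing.maximalIdeal S)
    {Y : M2 S} (hY : ∀ g, (ρ g * Y).trace = 0) : Y = 0 := by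
  obtain ⟨g, hg⟩ := exists_four hr
  refine eq_zero_of_gram (fun i => ρ (g i)) ?_ fun i => hY _
  intro h0
  have : CharP (IsLocalRing.ResidueField S) 2 := by
    refine (CharP.charP_iff_prime_eq_zero Nat.prime_two).mpr ?_
    rw [← map_natCast (IsLocalRing.residue S), Nat.cast_ofNat, IsLocalRing.residue_eq_zero_iff]
    exact h2
  -- the Gram matrix of the four lifts reduces to that of the basis `four`
  let j : ZMod 2 →+* IsLocalRing.ResidueField S := ZMod.castHom dvd_rfl _
  have key : (gram fun i => ρ (g i)).map (IsLocalRing.residue S) = (gram four).map j := by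
    ext a b
    simp only [gram, Matrix.map_apply, Matrix.of_apply, ← map_mul, ← hg, ← Units.val_mul]
    have h := (IsLocalRing.residue_eq_zero_iff _).mpr (hres (g a * g b))
    rw [map_sub, map_natCast, sub_eq_zero] at h
    rw [h]
    show _ = j _
    rw [← map_natCast j, ZMod.natCast_zmod_val]
  have h1 := congrArg Matrix.det key
  rw [← RingHom.mapMatrix_apply, ← RingHom.mapMatrix_apply, ← RingHom.map_det, ← RingHom.map_det,
    h0, map_zero] at h1
  exact gram_four (j.injective (h1.symm.trans (map_zero j).symm))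

include hr in
/-- Over a field of characteristic two, an element acts trivially iff residually trivial. -/
theorem eq_one_iff {k : Type*} [Field k] [CharP k 2] {ρ : G →* M2 k}
    (hres : ∀ g, (ρ g).trace = ((r g : M2 (ZMod 2)).trace.val : k)) (σ : G) :
    ρ σ = 1 ↔ r σ = 1 := by
  have h2k : (2 : k) ∈ IsLocalRing.maximalIdeal k := by
    rw [show (2 : k) = ((2 : ℕ) : k) by norm_num, CharP.cast_eq_zero]
    exact zero_mem _
  have h22 : (2 : ZMod 2) ∈ IsLocalRing.maximalIdeal (ZMod 2) := by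
    rw [show (2 : ZMod 2) = 0 from rfl]
    exact zero_mem _
  constructor
  · intro h
    refine Units.ext (sub_eq_zero.mp (eq_zero_of_trace (S := ZMod 2) hr h22
      (ρ := (Units.coeHom (M2 (ZMod 2))).comp r) (fun g => ?_) fun g => ?_))
    · rw [ZMod.natCast_zmod_val]
      simp
    · have h1 : ((r (g * σ) : M2 (ZMod 2)).trace.val : k) =
          ((r g : M2 (ZMod 2)).trace.val : k) := by
        rw [← hres, ← hres, map_mul, h, mul_one]
      let j : ZMod 2 →+* k := ZMod.castHom dvd_rfl k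
      rw [← map_natCast j, ← map_natCast j, ZMod.natCast_zmod_val, ZMod.natCast_zmod_val] at h1
      have h3 := j.injective h1
      rw [Units.val_one, mul_sub, mul_one, Matrix.trace_sub]
      show ((r g : M2 (ZMod 2)) * (r σ : M2 (ZMod 2))).trace - (r g : M2 (ZMod 2)).trace = 0
      rw [← Units.val_mul, ← map_mul, h3, sub_self]
  · intro h
    refine sub_eq_zero.mp (eq_zero_of_trace (S := k) hr h2k (ρ := ρ)
      (fun g => by rw [hres g, sub_self]; exact zero_mem _) fun g => ?_)
    rw [mul_sub, mul_one, Matrix.trace_sub, ← map_mul, hres, hres, map_mul, h, mul_one, sub_self]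

end Gram

section Triangular

variable {G : Type*} [Group G] {O : Type*} [CommRing O] [IsDomain O]

/-- A nonzero row over a valuation ring is a multiple of one with a coordinate `1`. -/
theorem exists_primitive [ValuationRing O] {w : Fin 2 → O} (hw : w ≠ 0) :
    ∃ (c : O) (w' : Fin 2 → O), c ≠ 0 ∧ w = c • w' ∧ (w' 0 = 1 ∨ w' 1 = 1) := by
  obtain ⟨t, ht⟩ := ValuationRing.cond (w 0) (w 1)
  rcases ht with ht | ht
  · refine ⟨w 0, ![1, t], fun h => hw ?_, funext fun i => ?_, Or.inl rfl⟩
    · funext i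
      fin_cases i
      · exact h
      · simp [← ht, h]
    · fin_cases i
      · simp
      · simp [ht]
  · refine ⟨w 1, ![t, 1], fun h => hw ?_, funext fun i => ?_, Or.inr rfl⟩
    · funext i
      fin_cases i
      · simp [← ht, h]
      · exact h
    · fin_cases i
      · simp [ht]
      · simp

omit [IsDomain O] in
/-- A row with a coordinate `1` is the second row of an invertible matrix. -/
theorem exists_completion {w : Fin 2 → O} (hw : w 0 = 1 ∨ w 1 = 1) :
    ∃ P : (M2 O)ˣ, (P : M2 O) 1 = w := by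
  rcases hw with h | h
  · have e : IsUnit (!![0, 1; w 0, w 1] : M2 O) := by
      rw [Matrix.isUnit_iff_isUnit_det, Matrix.det_fin_two_of, h]
      simp
    exact ⟨e.unit, funext fun i => by fin_cases i <;> rfl⟩
  · have e : IsUnit (!![1, 0; w 0, w 1] : M2 O) := by
      rw [Matrix.isUnit_iff_isUnit_det, Matrix.det_fin_two_of, h]
      simp
    exact ⟨e.unit, funext fun i => by fin_cases i <;> rfl⟩

/-- **Triangular form**: if inertia fixes a nonzero row and is not trivial, every element
normalising it is triangular in a suitable basis. -/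
theorem exists_triangular [ValuationRing O] (ρ : G →* M2 O) (I : Subgroup G) (D : Set G)
    (hD : ∀ g ∈ D, ∀ σ ∈ I, g * σ * g⁻¹ ∈ I) {w : Fin 2 → O} (hw : w ≠ 0)
    (hfix : ∀ σ ∈ I, w ᵥ* ρ σ = w) (hne : ∃ τ ∈ I, ρ τ ≠ 1) :
    ∃ ρ' : G →* M2 O, (∀ g, (ρ' g).trace = (ρ g).trace) ∧
      (∀ g, (ρ' g).det = (ρ g).det) ∧ (∀ g i k (t : O), (∀ a b, t ∣ ρ g a b - (1 : M2 O) a b) →
        t ∣ ρ' g i k - (1 : M2 O) i k) ∧ (∀ σ ∈ I, ρ' σ 1 0 = 0 ∧ ρ' σ 1 1 = 1) ∧
      ∀ g ∈ D, ρ' g 1 0 = 0 := by
  obtain ⟨c, w', hc, rfl, hw'⟩ := exists_primitive hw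
  obtain ⟨P, hP⟩ := exists_completion hw'
  let ρ' : G →* M2 O :=
    { toFun := fun g => (P : M2 O) * ρ g * ((P⁻¹ : (M2 O)ˣ) : M2 O)
      map_one' := by rw [map_one, mul_one, Units.mul_inv]
      map_mul' := fun g h => by
        rw [map_mul]
        simp only [mul_assoc, Units.inv_mul_cancel_left] }
  have htr : ∀ g, (ρ' g).trace = (ρ g).trace := fun g => by
    show ((P : M2 O) * ρ g * ((P⁻¹ : (M2 O)ˣ) : M2 O)).trace = _
    rw [Matrix.trace_mul_comm, ← mul_assoc, Units.inv_mul, one_mul]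
  have hrow : ∀ g j, ρ' g 1 j = ((w' ᵥ* ρ g) ᵥ* ((P⁻¹ : (M2 O)ˣ) : M2 O)) j := by
    intro g j
    show ((P : M2 O) * ρ g * ((P⁻¹ : (M2 O)ˣ) : M2 O)) 1 j = _
    rw [Matrix.mul_apply]
    show _ = ∑ k : Fin 2, (w' ᵥ* ρ g) k * ((P⁻¹ : (M2 O)ˣ) : M2 O) k j
    refine Finset.sum_congr rfl fun k _ => ?_
    rw [Matrix.mul_apply, hP]
    rfl
  have hone : ∀ j, (w' ᵥ* ((P⁻¹ : (M2 O)ˣ) : M2 O)) j = (1 : M2 O) 1 j := fun j => by
    rw [show (1 : M2 O) = (P : M2 O) * ((P⁻¹ : (M2 O)ˣ) : M2 O) from P.mul_inv.symm,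
      Matrix.mul_apply, hP]
    rfl
  have hI : ∀ σ ∈ I, ρ' σ 1 0 = 0 ∧ ρ' σ 1 1 = 1 := by
    intro σ hσ
    have h1 : w' ᵥ* ρ σ = w' := by
      have := hfix σ hσ
      rw [Matrix.smul_vecMul] at this
      exact funext fun i => mul_left_cancel₀ hc (congrFun this i)
    rw [hrow, hrow, h1, hone, hone]
    simp
  refine ⟨ρ', htr, fun g => ?_, fun g i k t ht => ?_, hI, fun g hg => ?_⟩
  · show ((P : M2 O) * ρ g * ((P⁻¹ : (M2 O)ˣ) : M2 O)).det = _
    rw [Matrix.det_mul, Matrix.det_mul, mul_comm, ← mul_assoc, ← Matrix.det_mul, Units.inv_mul,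
      Matrix.det_one, one_mul]
  · have e : ρ' g - 1 = (P : M2 O) * (ρ g - 1) * ((P⁻¹ : (M2 O)ˣ) : M2 O) := by
      rw [mul_sub, sub_mul, mul_one, Units.mul_inv]
      rfl
    rw [← Matrix.sub_apply, e, Matrix.mul_apply]
    refine Finset.dvd_sum fun b _ => dvd_mul_of_dvd_left ?_ _
    rw [Matrix.mul_apply]
    exact Finset.dvd_sum fun a _ => dvd_mul_of_dvd_right (ht a b) _
  -- `τ` fixes the second row of `ρ' g`, so if that row did not start with `0`, `τ` would act as `1`
  obtain ⟨τ, hτ, hτ1⟩ := hne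
  obtain ⟨hτ10, hτ11⟩ := hI τ hτ
  obtain ⟨h'10, h'11⟩ := hI _ (hD g hg τ hτ)
  have hmul : ρ' g * ρ' τ = ρ' (g * τ * g⁻¹) * ρ' g := by
    rw [← map_mul, ← map_mul, inv_mul_cancel_right]
  have e0 := congrFun (congrFun hmul 1) 0
  have e1 := congrFun (congrFun hmul 1) 1
  simp only [Matrix.mul_apply, Fin.sum_univ_two, hτ10, hτ11, h'10, h'11] at e0 e1
  by_contra hne10
  have h00 : ρ' τ 0 0 = 1 := mul_left_cancel₀ hne10 (by linear_combination e0)
  have h01 : ρ' τ 0 1 = 0 := mul_left_cancel₀ hne10 (by linear_combination e1)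
  refine hτ1 ?_
  have h1 : ρ' τ = 1 := by
    ext i j
    fin_cases i <;> fin_cases j <;> simp [h00, h01, hτ10, hτ11]
  calc ρ τ = ((P⁻¹ : (M2 O)ˣ) : M2 O) * ρ' τ * (P : M2 O) := by
        show _ = _ * ((P : M2 O) * ρ τ * ((P⁻¹ : (M2 O)ˣ) : M2 O)) * (P : M2 O)
        simp only [mul_assoc, Units.inv_mul, mul_one, Units.inv_mul_cancel_left]
    _ = 1 := by rw [h1, mul_one, Units.inv_mul]

omit [IsDomain O] in
/-- A triangular representation with quotient character squaring to one has a line. -/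
theorem lineAt_of_triangular (ρ : G →* M2 O) (D : Set G) (h10 : ∀ g ∈ D, ρ g 1 0 = 0)
    (hsq : ∀ g ∈ D, ρ g 1 1 * ρ g 1 1 = 1) : Deform.LineAt ρ D fun g => ρ g 1 1 := by
  have hdet : ∀ g ∈ D, ρ g 1 1 * (ρ g).det = ρ g 0 0 := fun g hg => by
    rw [Matrix.det_fin_two, h10 g hg]
    linear_combination ρ g 0 0 * hsq g hg
  refine ⟨fun g hg h hh => ?_, fun g hg => ?_⟩
  · rw [hdet g hg]
    ext i j
    fin_cases i <;> fin_cases j <;> simp [Matrix.mul_apply, Fin.sum_univ_two, h10 g hg, h10 h hh]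
  · rw [Matrix.trace_fin_two, mul_add, mul_one, hdet g hg]

end Triangular

end Fermat.Agent.LT.AtTwo

end
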