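import Fermat.Agent.OrdinaryAtP.Functions
import Fermat.Agent.LT.LocalProps.Connected
import Fermat.Agent.LT.AtTwo.Lines
import Fermat.Agent.GaloisReps.Models
import Fermat.Agent.GaloisReps.Rep
import Fermat.Agent.RT.Mazur.Poles
import Fermat.Agent.JacTorsion.Main

/-!
# The moved part of an eigen plane at two is a line

At a level `2 M` with `9 ∣ M`, a residually involutive and non-trivial inertia on an eigen plane
of the Tate module fixes a nonzero row: otherwise every `2`-torsion class of the plane would be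
connected and inertia would act trivially on it.

Main result: `exists_fixed_row`.
-/

set_option autoImplicit false

noncomputable section

open Matrix

namespace Fermat.Agent.LT.AtTwo

open ModularCurve AlgebraicCurve Semistable
open Fermat.Agent.Arith (QBar GQ)
open Fermat.Agent.GaloisReps
open Fermat.Agent.OrdinaryAtP (movedGroup ConnClass connClass_of_movedGroup)
open Fermat.Agent.LT.Deform (M2)

/-! ## The plane and its torsion classes -/

/-- The model at two. -/
abbrev model (N : ℕ) [NeZero N] : HeckeGaloisModel N 2 :=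
  modelOfCongruence (eichlerShimuraCongruence N 2)

variable {M : ℕ} [NeZero M] {O : Type} [CommRing O] [IsDomain O] [IsDiscreteValuationRing O]
  [CharZero O] [Algebra ℤ_[2] O] (θ : FullHecke (2 * M) →+* O)

/-- The matrices on the eigen plane. -/
def planeRep : GQ →* M2 O :=
  (LinearMap.toMatrixAlgEquiv ((model (2 * M)).eigenBasis θ)).toMonoidHom.comp
    ((model (2 * M)).eigenAction (algebraMap ℤ_[2] O) θ)

/-- The vector of the lattice with given coordinates. -/
def vec : (Fin 2 → O) →ₗ[O] (Fin (model (2 * M)).d → O) :=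
  (eigenspace (model (2 * M)).hecke θ).subtype.comp
    ((model (2 * M)).eigenBasis θ).equivFun.symm.toLinearMap

omit [Algebra ℤ_[2] O] in
theorem vec_injective : Function.Injective (vec θ) :=
  Subtype.val_injective.comp ((model (2 * M)).eigenBasis θ).equivFun.symm.injective

theorem vec_planeRep (σ : GQ) (y : Fin 2 → O) :
    vec θ (planeRep θ σ *ᵥ y) =
      ((model (2 * M)).gal σ).map (algebraMap ℤ_[2] O) *ᵥ vec θ y := by
  set b := (model (2 * M)).eigenBasis θ
  set z := b.equivFun.symm y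
  have h1 : b.equivFun ((model (2 * M)).eigenAction (algebraMap ℤ_[2] O) θ σ z) =
      planeRep θ σ *ᵥ y := by
    have h := LinearMap.toMatrix_mulVec_repr b b
      ((model (2 * M)).eigenAction (algebraMap ℤ_[2] O) θ σ) z
    rw [show (b.repr z : Fin 2 → O) = y from b.equivFun.apply_symm_apply y] at h
    exact h.symm
  show Subtype.val (b.equivFun.symm (planeRep θ σ *ᵥ y)) = _
  rw [← h1, b.equivFun.symm_apply_apply, HeckeGaloisModel.coe_eigenAction]
  rfl

/-- A functional read modulo `2 ^ n`. -/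
def func (n : ℕ) (ψ : O →ₗ[ℤ_[2]] ℤ_[2]) : O →+ ZMod (2 ^ n) :=
  (PadicInt.toZModPow n).toAddMonoidHom.comp ψ.toAddMonoidHom

omit [IsDomain O] [IsDiscreteValuationRing O] [CharZero O] in
theorem func_apply (n : ℕ) (ψ : O →ₗ[ℤ_[2]] ℤ_[2]) (a : O) :
    func n ψ a = PadicInt.toZModPow n (ψ a) := rfl

/-- The identification of the torsion. -/
abbrev tIso : TorsionIso (2 * M) 2 := torsionIso (2 * M) 2 (conjProperty (2 * M))

/-- The torsion class of a vector through a functional. -/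
def cls (n : ℕ) (ψ : O →ₗ[ℤ_[2]] ℤ_[2]) : (Fin 2 → O) →+ JZero (2 * M) :=
  ((JTors (2 * M) 2 n).subtype.comp ((tIso (M := M)).psi n).symm.toAddMonoidHom).comp
    (AddMonoidHom.mk' (fun (y : Fin 2 → O) (i : Fin (model (2 * M)).d) => func n ψ (vec θ y i))
      fun y y' => funext fun i => by simp only [map_add, Pi.add_apply]; rfl)

theorem cls_eq (n : ℕ) (ψ : O →ₗ[ℤ_[2]] ℤ_[2]) (y : Fin 2 → O) :
    cls θ n ψ y = (((tIso (M := M)).psi n).symm fun i =>
      func n ψ (vec θ y i) : JTors (2 * M) 2 n) :=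
  rfl

theorem nsmul_cls (n : ℕ) (ψ : O →ₗ[ℤ_[2]] ℤ_[2]) (y : Fin 2 → O) :
    2 ^ n • cls θ n ψ y = 0 := by
  rw [cls_eq]
  set x := ((tIso (M := M)).psi n).symm fun i => func n ψ (vec θ y i)
  have := x.2
  rwa [Pic0.mem_torsion, natCast_zsmul] at this

theorem smul_cls (n : ℕ) (ψ : O →ₗ[ℤ_[2]] ℤ_[2]) (σ : GQ) (y : Fin 2 → O) :
    σ • cls θ n ψ y = cls θ n ψ (planeRep θ σ *ᵥ y) := by
  rw [cls_eq, cls_eq]
  show ((galTors n σ _ : JTors (2 * M) 2 n) : JZero (2 * M)) = _
  refine congrArg Subtype.val ?_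
  rw [AddEquiv.eq_symm_apply, ← TorsionIso.galLvl_mulVec, AddEquiv.apply_symm_apply,
    ← TorsionIso.map_gal]
  funext i
  rw [vec_planeRep]
  simp only [Matrix.mulVec, dotProduct, Matrix.map_apply, map_sum]
  refine Finset.sum_congr rfl fun j _ => ?_
  show _ = func n ψ (algebraMap ℤ_[2] O ((model (2 * M)).gal σ i j) * vec θ y j)
  rw [← Algebra.smul_def, func_apply, func_apply, map_smul, smul_eq_mul, map_mul]
  rfl

theorem cls_succ (n : ℕ) (ψ : O →ₗ[ℤ_[2]] ℤ_[2]) (y : Fin 2 → O) :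
    cls θ n ψ y = 2 • cls θ (n + 1) ψ y := by
  rw [cls_eq, cls_eq]
  set x := ((tIso (M := M)).psi (n + 1)).symm fun i => func (n + 1) ψ (vec θ y i) with hx
  have hmem : 2 • (x : JZero (2 * M)) ∈ JTors (2 * M) 2 n := by
    have := x.2
    rw [Pic0.mem_torsion, natCast_zsmul] at this
    rw [Pic0.mem_torsion, natCast_zsmul, ← mul_nsmul', ← pow_succ]
    exact this
  have h := (tIso (M := M)).psi_apply n ⟨_, hmem⟩
  rw [(tIso (M := M)).compat n x ⟨_, hmem⟩ rfl] at h
  refine congrArg Subtype.val (a₂ := (⟨_, hmem⟩ : JTors (2 * M) 2 n))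
    ((AddEquiv.symm_apply_eq _).mpr ?_)
  rw [h]
  have hc := congrArg (fun v => fun i => ZMod.castHom (pow_dvd_pow 2 n.le_succ)
    (ZMod (2 ^ n)) (v i))
    ((tIso (M := M)).psi_apply (n + 1) x)
  rw [hx, AddEquiv.apply_symm_apply] at hc
  refine Eq.trans ?_ (hc.trans ?_)
  · funext i
    exact (DFunLike.congr_fun (PadicInt.zmod_cast_comp_toZModPow n (n + 1) n.le_succ) _).symm
  · funext i
    rfl

theorem cls_one (ψ : O →ₗ[ℤ_[2]] ℤ_[2]) (y : Fin 2 → O) (k : ℕ) :
    cls θ 1 ψ y = cls θ (k + 1) ψ (((2 : O) ^ k) • y) := by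
  have h : cls θ 1 ψ y = 2 ^ k • cls θ (k + 1) ψ y := by
    induction k with
    | zero => rw [pow_zero, one_smul]
    | succ k ih => rw [ih, cls_succ θ (k + 1) ψ y, ← mul_nsmul', pow_succ]
  rw [h, ← map_nsmul, ← Nat.cast_smul_eq_nsmul O, Nat.cast_pow, Nat.cast_ofNat]

variable {A : ValuationSubring QBar}

/-! ## The moved part -/

/-- The moved part. -/
def moved (A : ValuationSubring QBar) : Submodule O (Fin 2 → O) :=
  Submodule.span O {z | ∃ σ ∈ A.inertiaSubgroupIn ℚ, ∃ y, planeRep θ σ *ᵥ y - y = z}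

theorem cls_mem_movedGroup {z : Fin 2 → O} (hz : z ∈ moved θ A) (n : ℕ) :
    ∀ ψ : O →ₗ[ℤ_[2]] ℤ_[2], cls θ n ψ z ∈ movedGroup A (2 * M) 2 := by
  induction hz using Submodule.span_induction with
  | mem z hz =>
    obtain ⟨σ, hσ, y, rfl⟩ := hz
    intro ψ
    rw [map_sub, ← smul_cls]
    exact AddSubgroup.subset_closure ⟨σ, hσ, cls θ n ψ y, n, nsmul_cls θ n ψ y, rfl⟩
  | zero => intro ψ; rw [map_zero]; exact zero_mem _
  | add a b _ _ ha hb => intro ψ; rw [map_add]; exact add_mem (ha ψ) (hb ψ)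
  | smul c a _ ha =>
    intro ψ
    have e : cls θ n ψ (c • a) = cls θ n (ψ.comp (LinearMap.mulLeft ℤ_[2] c)) a := by
      rw [cls_eq, cls_eq, map_smul]
      rfl
    rw [e]
    exact ha _

/-- Pairwise dependent vectors in the plane are killed by one nonzero row. -/
private theorem exists_row_vanishing {R : Type*} [CommRing R] [Nontrivial R]
    (Z : Set (Fin 2 → R)) (hall : ∀ u ∈ Z, ∀ v ∈ Z, u 0 * v 1 - u 1 * v 0 = 0) :
    ∃ w : Fin 2 → R, w ≠ 0 ∧ ∀ z ∈ Z, w 0 * z 0 + w 1 * z 1 = 0 := by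
  by_cases hu : ∃ u ∈ Z, u ≠ 0
  · obtain ⟨u, hu, hu0⟩ := hu
    refine ⟨![-u 1, u 0], fun h => hu0 ?_, fun z hz => ?_⟩
    · funext i
      fin_cases i
      · simpa using congrFun h 1
      · simpa using congrFun h 0
    · simp only [Matrix.cons_val_zero, Matrix.cons_val_one]
      linear_combination hall u hu z hz
  · push Not at hu
    exact ⟨![1, 0], fun h => one_ne_zero (congrFun h 0), fun z hz => by simp [hu z hz]⟩

omit [IsDiscreteValuationRing O] [CharZero O] in
/-- An element killed modulo two by every functional is divisible by two. -/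
private theorem two_dvd_of_func [Module.Finite ℤ_[2] O]
    (hinj : Function.Injective (algebraMap ℤ_[2] O)) (a : O)
    (ha : ∀ ψ : O →ₗ[ℤ_[2]] ℤ_[2], func 1 ψ a = 0) : (2 : O) ∣ a := by
  have : Module.IsTorsionFree ℤ_[2] O := Module.isTorsionFree_iff_algebraMap_injective.mpr hinj
  have : Module.Free ℤ_[2] O := Module.free_of_finite_type_torsion_free'
  let b := Module.Free.chooseBasis ℤ_[2] O
  have : Fintype (Module.Free.ChooseBasisIndex ℤ_[2] O) := inferInstance
  have hc : ∀ i, (2 : ℤ_[2]) ∣ b.repr a i := fun i => by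
    have := ha (b.coord i)
    rw [func_apply, ← RingHom.mem_ker, PadicInt.ker_toZModPow, Ideal.mem_span_singleton,
      pow_one] at this
    simpa using this
  rw [← b.sum_repr a]
  refine Finset.dvd_sum fun i _ => ?_
  obtain ⟨c, hc⟩ := hc i
  rw [hc, Algebra.smul_def, map_mul, map_ofNat, mul_assoc]
  exact dvd_mul_right _ _

/-- When the classes of order two are connected and inertia is residually of order two, inertia
fixes the classes of the multiples of `π'`, where `π π' = 2`. -/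
private theorem cls_moved_eq_zero (hA : A.LiesOverPrime 2) [CharP (Semistable.Res A) 2]
    [FF.IsFunctionField QBar (FB (2 * M))] {h : Setup A M 2}
    [FF.IsFunctionField (Semistable.Res A) (KM A M)]
    [Nonempty (Pt h)] {π π' : O} (hm : IsLocalRing.maximalIdeal O = Ideal.span {π})
    (hπ' : (2 : O) = π * π')
    (hconn : ∀ (ψ : O →ₗ[ℤ_[2]] ℤ_[2]) (y : Fin 2 → O), ConnClass h (cls θ 1 ψ y))
    (hinv : ∀ σ ∈ A.inertiaSubgroupIn ℚ, ∀ i j,
      (planeRep θ σ * planeRep θ σ - 1 : M2 O) i j ∈ IsLocalRing.maximalIdeal O)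
    {τ : GQ} (hτ : τ ∈ A.inertiaSubgroupIn ℚ) (ψ : O →ₗ[ℤ_[2]] ℤ_[2]) :
    ∀ y : Fin 2 → O, cls θ 1 ψ (π' • (planeRep θ τ *ᵥ y - y)) = 0 := by
  classical
  let G : AddSubgroup (JZero (2 * M)) :=
    ((cls θ 1 ψ).comp (DistribSMul.toAddMonoidHom (Fin 2 → O) π')).range
  have hG : ∀ g : GQ, ∀ x ∈ G, g • x ∈ G := by
    rintro g _ ⟨y, rfl⟩
    exact ⟨planeRep θ g *ᵥ y, by
      show cls θ 1 ψ (π' • (planeRep θ g *ᵥ y)) = g • cls θ 1 ψ (π' • y)
      rw [smul_cls, Matrix.mulVec_smul]⟩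
  let : DistribMulAction GQ G :=
    { smul := fun g x => ⟨g • (x : JZero (2 * M)), hG g x x.2⟩
      one_smul := fun x => Subtype.ext (one_smul GQ (x : JZero (2 * M)))
      mul_smul := fun a b x => Subtype.ext (mul_smul a b (x : JZero (2 * M)))
      smul_zero := fun g => Subtype.ext (smul_zero g)
      smul_add := fun g x y => Subtype.ext (smul_add g (x : JZero (2 * M)) (y : JZero (2 * M))) }
  have : Finite (Pic0.torsion QBar (FB (2 * M)) 2) := JacTorsion.finite_torsion_JZero (2 * M) 2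
  have hGc : ∀ x ∈ G, ConnClass h x := by
    rintro _ ⟨y, rfl⟩
    exact hconn ψ (π' • y)
  have : Finite G := Finite.of_injective
    (fun x : G => (⟨(x : JZero (2 * M)), by
      rw [Pic0.mem_torsion, natCast_zsmul]
      exact (hGc x x.2).nsmul_eq_zero h⟩ : Pic0.torsion QBar (FB (2 * M)) 2))
    fun x y e => Subtype.ext (congrArg (fun z : Pic0.torsion QBar (FB (2 * M)) 2 => z.1) e)
  -- `G` is a connected group killed by `2` on which every inertia element squares to one
  obtain ⟨S, -, hSA, hSeq, hSsep, hScong, hScomul⟩ :=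
    OrdinaryAtP.exists_connectedFunctions h G hGc fun g _ x hx => hG g x hx
  have hD : LocalProps.ConnectedData A (⊤ : AddSubgroup G) (S : Set (G → QBar)) :=
    { mem_A := fun f hf x _ => hSA f hf x
      equivariant := fun f hf σ hσ x _ => hSeq f hf σ hσ x
      congr := fun f hf x _ => hScong f hf x
      separates := fun x _ hx => hSsep x 0 hx
      comul := fun f hf => hScomul f hf }
  have hexp : ∀ x ∈ (⊤ : AddSubgroup G), x + x = 0 := fun x _ => Subtype.ext (by
    rw [AddSubgroup.coe_add, ← two_nsmul]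
    exact (hGc x x.2).nsmul_eq_zero h)
  have hinvG : ∀ σ ∈ A.inertiaSubgroupIn ℚ, ∀ x ∈ (⊤ : AddSubgroup G), σ • σ • x = x := by
    rintro σ hσ ⟨_, y, rfl⟩ -
    refine Subtype.ext ?_
    show σ • σ • cls θ 1 ψ (π' • y) = cls θ 1 ψ (π' • y)
    rw [smul_cls, smul_cls, ← sub_eq_zero, ← map_sub, Matrix.mulVec_mulVec, Matrix.mulVec_smul,
      ← smul_sub]
    have hz : ∀ i, π ∣ ((planeRep θ σ * planeRep θ σ) *ᵥ y - y) i := fun i => by
      refine Ideal.mem_span_singleton.mp (hm ▸ ?_)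
      have e : (planeRep θ σ * planeRep θ σ) *ᵥ y - y =
          (planeRep θ σ * planeRep θ σ - 1) *ᵥ y := by
        rw [Matrix.sub_mulVec, Matrix.one_mulVec]
      rw [e]
      show ∑ j, _ * y j ∈ _
      exact Ideal.sum_mem _ fun j _ => Ideal.mul_mem_right _ _ (hinv σ hσ i j)
    choose z hz using hz
    have e2 : π' • ((planeRep θ σ * planeRep θ σ) *ᵥ y - y) = (2 : ℕ) • z := funext fun i => by
      rw [Pi.smul_apply, Pi.smul_apply, smul_eq_mul, nsmul_eq_mul, hz i]
      push_cast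
      rw [hπ']
      ring
    rw [e2, map_nsmul]
    simpa using nsmul_cls θ 1 ψ z
  intro y
  have h1 := LocalProps.inertia_trivial hD hA hexp (fun _ _ _ _ => trivial) hinvG τ hτ
    ⟨_, y, rfl⟩ trivial
  have h2 : τ • cls θ 1 ψ (π' • y) = cls θ 1 ψ (π' • y) := congrArg Subtype.val h1
  rw [smul_cls, Matrix.mulVec_smul, ← sub_eq_zero, ← map_sub, ← smul_sub] at h2
  exact h2

/-! ## A fixed row -/

/-- **A fixed row.** -/
theorem exists_fixed_row [Module.Finite ℤ_[2] O] (hinj : Function.Injective (algebraMap ℤ_[2] O))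
    (h2 : (2 : O) ∈ IsLocalRing.maximalIdeal O) (hA : A.LiesOverPrime 2) (h2M : ¬ 2 ∣ M)
    (h9 : 9 ∣ M)
    (hinv : ∀ σ ∈ A.inertiaSubgroupIn ℚ, ∀ i j,
      (planeRep θ σ * planeRep θ σ - 1 : M2 O) i j ∈ IsLocalRing.maximalIdeal O)
    (hne : ∃ τ ∈ A.inertiaSubgroupIn ℚ, ∃ i j,
      (planeRep θ τ - 1 : M2 O) i j ∉ IsLocalRing.maximalIdeal O) :
    ∃ w : Fin 2 → O, w ≠ 0 ∧ ∀ σ ∈ A.inertiaSubgroupIn ℚ, w ᵥ* planeRep θ σ = w := by
  classical
  by_contra! hno
  -- a multiple of every vector is moved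
  obtain ⟨u, hu, v, hv, hdet⟩ : ∃ u ∈ moved θ A, ∃ v ∈ moved θ A, u 0 * v 1 - u 1 * v 0 ≠ 0 := by
    by_contra! hall
    obtain ⟨w, hw0, hw⟩ := exists_row_vanishing (moved θ A : Set (Fin 2 → O)) hall
    obtain ⟨σ, hσ, hσw⟩ := hno w hw0
    refine hσw (funext fun j => ?_)
    have h1 := hw _ (Submodule.subset_span ⟨σ, hσ, Pi.single j 1, rfl⟩)
    simp only [Pi.sub_apply, Matrix.mulVec_single_one, Matrix.col_apply] at h1
    simp only [Matrix.vecMul, dotProduct, Fin.sum_univ_two]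
    fin_cases j <;> simp at h1 ⊢ <;> linear_combination h1
  obtain ⟨π, hπ⟩ := IsDiscreteValuationRing.exists_irreducible O
  have hm : IsLocalRing.maximalIdeal O = Ideal.span {π} :=
    (IsDiscreteValuationRing.irreducible_iff_uniformizer π).mp hπ
  obtain ⟨π', hπ'⟩ : π ∣ (2 : O) := Ideal.mem_span_singleton.mp (hm ▸ h2)
  obtain ⟨k, hk⟩ : ∃ k : ℕ, u 0 * v 1 - u 1 * v 0 ∣ (2 : O) ^ k := by
    obtain ⟨a, ha⟩ := IsDiscreteValuationRing.associated_pow_irreducible hdet hπ
    exact ⟨a, ha.dvd.trans (pow_dvd_pow_of_dvd ⟨π', hπ'⟩ a)⟩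
  have hall : ∀ y : Fin 2 → O, ((2 : O) ^ k) • y ∈ moved θ A := by
    intro y
    obtain ⟨c, hc⟩ := hk
    rw [hc, mul_comm, mul_smul]
    refine Submodule.smul_mem _ _ ?_
    have e : (u 0 * v 1 - u 1 * v 0) • y =
        (y 0 * v 1 - y 1 * v 0) • u + (u 0 * y 1 - u 1 * y 0) • v := by
      funext i
      fin_cases i <;> simp <;> ring
    rw [e]
    exact add_mem (Submodule.smul_mem _ _ hu) (Submodule.smul_mem _ _ hv)
  -- so every class of order two is connected
  have : CharP (Semistable.Res A) 2 := charP_res hA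
  have h := setup_of_not_dvd hA h2M
  have : FF.IsFunctionField (Semistable.Res A) (KM A M) := isFunctionField_KM _ h.hM
  have : Nonempty (Pt h) := RT.Mazur.nonempty_pt_of_dvd h (L := 9) (Or.inr rfl) h9
  have : FF.IsFunctionField QBar (FB (2 * M)) := ModFun.isFunctionField_bar (2 * M)
  have hconn : ∀ (ψ : O →ₗ[ℤ_[2]] ℤ_[2]) (y : Fin 2 → O), ConnClass h (cls θ 1 ψ y) := fun ψ y =>
    connClass_of_movedGroup h (by rw [cls_one θ ψ y k]; exact cls_mem_movedGroup θ (hall y) _ ψ)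
      (by simpa using nsmul_cls θ 1 ψ y)
  -- and inertia is residually trivial
  obtain ⟨τ, hτ, i₀, j₀, hτne⟩ := hne
  have hker : ∀ (ψ : O →ₗ[ℤ_[2]] ℤ_[2]) (y : Fin 2 → O),
      cls θ 1 ψ (π' • (planeRep θ τ *ᵥ y - y)) = 0 :=
    cls_moved_eq_zero θ hA hm hπ' hconn hinv hτ
  -- back to coordinates
  have hdiv := two_dvd_of_func hinj
  set y₀ : Fin 2 → O := Pi.single j₀ 1
  have hπ'0 : π' ≠ 0 := fun h0 => two_ne_zero (by rw [hπ', h0, mul_zero] : (2 : O) = 0)
  have hvdiv : ∀ i, π ∣ vec θ (planeRep θ τ *ᵥ y₀ - y₀) i := by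
    intro i
    have h3 : (2 : O) ∣ vec θ (π' • (planeRep θ τ *ᵥ y₀ - y₀)) i := hdiv _ fun ψ => by
      have h0 := hker ψ y₀
      rw [cls_eq, ZeroMemClass.coe_eq_zero, AddEquiv.map_eq_zero_iff] at h0
      exact congrFun h0 i
    rw [map_smul, Pi.smul_apply, smul_eq_mul, hπ', mul_comm π π'] at h3
    exact (mul_dvd_mul_iff_left hπ'0).mp h3
  choose c hc using hvdiv
  have hcmem : c ∈ eigenspace (model (2 * M)).hecke θ := by
    have hmem : π • c ∈ eigenspace (model (2 * M)).hecke θ := by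
      rw [show π • c = vec θ (planeRep θ τ *ᵥ y₀ - y₀) from funext fun i => (hc i).symm]
      exact Subtype.mem _
    rw [mem_eigenspace] at hmem ⊢
    intro a
    have := hmem a
    rw [Matrix.mulVec_smul, smul_comm] at this
    exact smul_right_injective _ hπ.ne_zero this
  have e4 : planeRep θ τ *ᵥ y₀ - y₀ =
      π • ((model (2 * M)).eigenBasis θ).equivFun ⟨c, hcmem⟩ := by
    refine vec_injective θ (funext fun i => ?_)
    rw [hc i, map_smul, Pi.smul_apply, smul_eq_mul]
    congr 1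
    exact (congrFun (congrArg Subtype.val
      (((model (2 * M)).eigenBasis θ).equivFun.symm_apply_apply ⟨c, hcmem⟩)) i).symm
  refine hτne (hm ▸ Ideal.mem_span_singleton.mpr ?_)
  have e5 := congrFun e4 i₀
  rw [show planeRep θ τ *ᵥ y₀ - y₀ = (planeRep θ τ - 1) *ᵥ y₀ by
    rw [Matrix.sub_mulVec, Matrix.one_mulVec], Matrix.mulVec_single_one, Matrix.col_apply] at e5
  rw [e5]
  exact dvd_mul_right _ _

end Fermat.Agent.LT.AtTwo

end
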