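import Fermat.Agent.OrdinaryAtP.Fixed

/-!
# Kummer generators of cocycles on inertia at two

A cocycle on inertia with values in the roots of unity of `2`-power order has a radical. Its power
fixed by inertia is a power of `2` times a unit; the exponent forces the quotient character of an
ordinary representation with très ramifiée reduction to square to one.

Main result: `false_of_cocycle`.
-/

set_option autoImplicit false

noncomputable section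

namespace Fermat.Agent.LT.AtTwo

open Fermat.Agent.Arith
open Fermat.Agent.OrdinaryAtP
open scoped Pointwise

/-! ## Radicals and units -/

/-- Hilbert 90 on a subgroup, for cocycles of finite level. -/
theorem exists_radical (I : Subgroup GQ) (z : GQ → QBar) (F : IntermediateField ℚ QBar)
    [FiniteDimensional ℚ F] (hzF : ∀ σ ∈ I, z σ ∈ F) (hz0 : ∀ σ ∈ I, z σ ≠ 0)
    (hco : ∀ σ ∈ I, ∀ τ ∈ I, z (σ * τ) = z σ * σ (z τ))
    (hlev : ∀ σ ∈ I, (∀ x ∈ F, σ x = x) → z σ = 1) :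
    ∃ β : QBar, β ≠ 0 ∧ ∀ σ ∈ I, σ β = z σ * β := by
  classical
  set L : IntermediateField ℚ QBar := IntermediateField.normalClosure ℚ F QBar with hL
  have hFL : F ≤ L := F.le_normalClosure
  have : Normal ℚ L := normalClosure.normal ℚ F QBar
  have : FiniteDimensional ℚ L := normalClosure.is_finiteDimensional ℚ F QBar
  -- the cocycle descends to the finite group `G` of restrictions to `L`
  set G := I.map (AlgEquiv.restrictNormalHom (F := ℚ) (K₁ := QBar) L)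
  choose pre hpre hpre' using fun x : G => Subgroup.mem_map.mp x.2
  have hact : ∀ (g : GQ) (t : L), ((AlgEquiv.restrictNormalHom L g t : L) : QBar) = g (t : QBar) :=
    fun g t => AlgEquiv.restrictNormal_commutes g L t
  have hwell : ∀ (x : G) (g : GQ), g ∈ I → AlgEquiv.restrictNormalHom L g = x →
      z g = z (pre x) := by
    intro x g hg hgx
    have h1 : (pre x)⁻¹ * g ∈ I := I.mul_mem (I.inv_mem (hpre x)) hg
    have h2 := hco _ (hpre x) _ h1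
    rw [mul_inv_cancel_left] at h2
    rw [h2, hlev _ h1 fun y hy => ?_, map_one, mul_one]
    have h3 : AlgEquiv.restrictNormalHom L ((pre x)⁻¹ * g) = 1 := by
      rw [map_mul, map_inv, hpre' x, hgx, inv_mul_cancel]
    have h4 := hact ((pre x)⁻¹ * g) ⟨y, hFL hy⟩
    rw [h3] at h4
    exact h4.symm
  set f : G → L := fun x => ⟨z (pre x), hFL (hzF _ (hpre x))⟩ with hf
  have hfmul : ∀ x y : G, f (x * y) = f x * (x : L ≃ₐ[ℚ] L) (f y) := by
    intro x y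
    refine Subtype.ext ?_
    show z (pre (x * y)) = z (pre x) * (((x : L ≃ₐ[ℚ] L) (f y) : L) : QBar)
    rw [← hpre' x, hact (pre x) (f y),
      ← hwell (x * y) (pre x * pre y) (I.mul_mem (hpre x) (hpre y))
        (by rw [map_mul, hpre', hpre']; rfl),
      hco _ (hpre x) _ (hpre y)]
  have hf0 : ∀ x, f x ≠ 0 := fun x h => hz0 _ (hpre x) (congrArg Subtype.val h)
  have : Fintype G := Fintype.ofFinite G
  -- by independence of characters some resolvent `β` is nonzero; its inverse is the radical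
  obtain ⟨t, ht⟩ : ∃ t : L, ∑ x : G, f x * (x : L ≃ₐ[ℚ] L) t ≠ 0 := by
    by_contra hall
    simp only [not_exists, not_not] at hall
    have hli := (linearIndependent_monoidHom L L).comp
      (fun x : G => ((x : L ≃ₐ[ℚ] L).toAlgHom.toRingHom.toMonoidHom))
      (fun x y e => Subtype.ext (AlgEquiv.ext fun t => DFunLike.congr_fun e t))
    exact hf0 1 (Fintype.linearIndependent_iff.mp hli f (by
      funext t
      simpa [Finset.sum_apply] using hall t) 1)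
  set β := ∑ x : G, f x * (x : L ≃ₐ[ℚ] L) t with hβ
  have hβ0 : (β : QBar) ≠ 0 := fun h => ht (Subtype.ext h)
  refine ⟨(β : QBar)⁻¹, inv_ne_zero hβ0, fun g hg => ?_⟩
  set y : G := ⟨_, Subgroup.mem_map_of_mem _ hg⟩
  have key : f y * (y : L ≃ₐ[ℚ] L) β = β := by
    rw [hβ, map_sum, Finset.mul_sum]
    refine Fintype.sum_equiv (Equiv.mulLeft y) _ _ fun x => ?_
    rw [Equiv.coe_mulLeft, map_mul, hfmul y x, ← mul_assoc]
    rfl
  have key' : z g * g (β : QBar) = β := by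
    have := congrArg (fun u : L => (u : QBar)) key
    simp only [MulMemClass.coe_mul] at this
    rwa [show ((f y : L) : QBar) = z g from (hwell y g hg rfl).symm,
      show (((y : L ≃ₐ[ℚ] L) β : L) : QBar) = g (β : QBar) from hact g β] at this
  rw [map_inv₀]
  refine inv_eq_of_mul_eq_one_left ?_
  calc z g * (β : QBar)⁻¹ * g (β : QBar) = (β : QBar)⁻¹ * (z g * g (β : QBar)) := by ring
    _ = 1 := by rw [key', inv_mul_cancel₀ hβ0]

variable {A : ValuationSubring QBar} (hA : A.LiesOverPrime 2)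

include hA in
theorem zpow_mul_unit_inj {a b : ℤ} {u v : (fixRing A)ˣ}
    (h : (2 : QBar) ^ a * ((u : fixRing A) : QBar) = (2 : QBar) ^ b * ((v : fixRing A) : QBar)) :
    a = b := by
  wlog hab : a ≤ b generalizing a b u v
  · exact (this h.symm (le_of_not_ge hab)).symm
  obtain ⟨k, rfl⟩ := Int.le.dest hab
  by_contra hne
  have hk : k ≠ 0 := fun h0 => hne (by simp [h0])
  rw [zpow_add₀ (two_ne_zero' QBar), mul_assoc, zpow_natCast] at h
  have h' : (u : fixRing A) = (2 : fixRing A) ^ k * (v : fixRing A) := by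
    refine Subtype.ext ?_
    push_cast
    exact mul_left_cancel₀ (zpow_ne_zero a (two_ne_zero' QBar)) h
  refine not_isUnit_natCast hA ((isUnit_pow_iff hk).mp ?_)
  have hu := u.isUnit
  rw [h'] at hu
  exact_mod_cast isUnit_of_mul_isUnit_left hu

/-- A decomposition element carries units of the fixed ring to units. -/
theorem exists_unit_map {g : GQ} (hg : g ∈ A.decompositionSubgroup ℚ) (u : (fixRing A)ˣ) :
    ∃ u' : (fixRing A)ˣ, ((u' : fixRing A) : QBar) = g ((u : fixRing A) : QBar) := by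
  have hgA : g • A = A := mem_decomposition_iff.mp hg
  have hfix : ∀ w : fixRing A, g (w : QBar) ∈ fixRing A := by
    intro w
    refine ⟨map_mem_of_mem_decomposition hgA w.2.1, fun τ hτ => ?_⟩
    have hconj : g⁻¹ * τ * g ∈ A.inertiaSubgroupIn ℚ := by
      have := (mem_inertia_smul_iff (g := g⁻¹) (A := A)).mpr hτ
      rwa [inv_inv, mem_decomposition_iff.mp (inv_mem hg)] at this
    have h1 := w.2.2 _ hconj
    rw [AlgEquiv.mul_apply, AlgEquiv.mul_apply] at h1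
    exact g⁻¹.injective (h1.trans (g.symm_apply_apply _).symm)
  refine ⟨⟨⟨_, hfix u⟩, ⟨_, hfix ↑(u⁻¹)⟩, Subtype.ext ?_, Subtype.ext ?_⟩, rfl⟩
  · show g ((u : fixRing A) : QBar) * g ((↑(u⁻¹) : fixRing A) : QBar) = 1
    rw [← map_mul, ← Subring.coe_mul, Units.mul_inv, Subring.coe_one, map_one]
  · show g ((↑(u⁻¹) : fixRing A) : QBar) * g ((u : fixRing A) : QBar) = 1
    rw [← map_mul, ← Subring.coe_mul, Units.inv_mul, Subring.coe_one, map_one]

include hA in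
theorem exists_odd_unit {w : ℤ} (hw : ¬ (2 : ℤ) ∣ w) :
    ∃ u : (fixRing A)ˣ, ((u : fixRing A) : QBar) = (w : QBar) := by
  have h1 : resW A (w : fixRing A) ≠ 0 := by
    obtain ⟨q, rfl⟩ : Odd w := Int.not_even_iff_odd.mp fun h => hw h.two_dvd
    push_cast
    have h2 : resW A (2 : fixRing A) = 0 := by exact_mod_cast resW_natCast_self hA
    rw [map_add, map_mul, h2, zero_mul, zero_add, map_one]
    exact one_ne_zero
  exact ⟨(isUnit_of_resW_ne_zero hA Nat.prime_two h1).unit, by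
    rw [IsUnit.unit_spec]; exact Subring.coe_intCast _ w⟩

/-! ## Roots of unity and exponents -/

/-- The `2 ^ n`-th root of unity with a given exponent. -/
def pw {n : ℕ} (ζ : QBar) (a : ZMod (2 ^ n)) : QBar := ζ ^ a.val

variable {n : ℕ} {ζ : QBar} (hζ : IsPrimitiveRoot ζ (2 ^ n))

include hζ

theorem pow_mod_eq (k : ℕ) : ζ ^ (k % 2 ^ n) = ζ ^ k := (pow_eq_pow_mod k hζ.pow_eq_one).symm

theorem pw_natCast (k : ℕ) : pw ζ (k : ZMod (2 ^ n)) = ζ ^ k := by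
  rw [pw, ZMod.val_natCast, pow_mod_eq hζ]

theorem pw_add (a b : ZMod (2 ^ n)) : pw ζ (a + b) = pw ζ a * pw ζ b := by
  conv_lhs => rw [← ZMod.natCast_zmod_val a, ← ZMod.natCast_zmod_val b, ← Nat.cast_add,
    pw_natCast hζ, pow_add]
  rfl

theorem pw_natCast_mul (k : ℕ) (a : ZMod (2 ^ n)) : pw ζ ((k : ZMod (2 ^ n)) * a) = pw ζ a ^ k := by
  conv_lhs => rw [← ZMod.natCast_zmod_val a, ← Nat.cast_mul, pw_natCast hζ, mul_comm, pow_mul]
  rfl

theorem pw_ne_zero (a : ZMod (2 ^ n)) : pw ζ a ≠ 0 :=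
  pow_ne_zero _ (hζ.ne_zero (pow_ne_zero _ two_ne_zero))

theorem pw_pow (a : ZMod (2 ^ n)) : pw ζ a ^ 2 ^ n = 1 := by
  rw [pw, ← pow_mul, mul_comm, pow_mul, hζ.pow_eq_one, one_pow]

theorem map_pw {g : GQ} {m : ℕ} (hg : g ζ = ζ ^ m) (a : ZMod (2 ^ n)) :
    g (pw ζ a) = pw ζ ((m : ZMod (2 ^ n)) * a) := by
  rw [pw_natCast_mul hζ, pw, map_pow, hg, ← pow_mul, ← pow_mul, mul_comm]

theorem pw_half (hn : 1 ≤ n) (a : ZMod (2 ^ n)) :
    pw ζ a ^ 2 ^ (n - 1) = (-1) ^ (ZMod.castHom (dvd_pow_self 2 (by omega : n ≠ 0))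
      (ZMod 2) a).val := by
  have hneg : ζ ^ 2 ^ (n - 1) = -1 := by
    have h2 : IsPrimitiveRoot (ζ ^ 2 ^ (n - 1)) 2 := hζ.pow (pow_pos two_pos n) (by
      rw [← pow_succ, Nat.sub_add_cancel hn])
    exact h2.eq_neg_one_of_two_right
  rw [pw, ← pow_mul, mul_comm, pow_mul, hneg, ZMod.castHom_apply, ← ZMod.natCast_val,
    ZMod.val_natCast, ← neg_one_pow_eq_pow_mod_two]

variable {O : Type*} [CommRing O]

omit hζ in
/-- A functional killing `2 ^ n` reads multiplication by congruent elements as scalars. -/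
theorem phi_mul {φ : O →+ ZMod (2 ^ n)} {c m : O} {k : ℕ} (h : (2 : O) ^ n ∣ c - m)
    (hm : m = (k : O)) (y : O) : φ (c * y) = (k : ZMod (2 ^ n)) * φ y := by
  obtain ⟨t, ht⟩ := h
  have e : c * y = k • y + (2 ^ n : ℕ) • (t * y) := by
    rw [nsmul_eq_mul, nsmul_eq_mul, ← hm]
    push_cast
    linear_combination y * ht
  rw [e, map_add, map_nsmul, map_nsmul, nsmul_eq_mul, nsmul_eq_mul, ZMod.natCast_self, zero_mul,
    add_zero]

/-- The exponent on roots of unity. -/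
theorem exists_cycExp (g : GQ) : ∃ m : ℕ, g ζ = ζ ^ m ∧ ∀ t : QBar, t ^ 2 ^ n = 1 →
    g t = t ^ m := by
  have : NeZero (2 ^ n) := ⟨pow_ne_zero _ two_ne_zero⟩
  obtain ⟨m, -, hm⟩ := hζ.eq_pow_of_pow_eq_one (ξ := g ζ)
    (by rw [← map_pow, hζ.pow_eq_one, map_one])
  refine ⟨m, hm.symm, fun t ht => ?_⟩
  obtain ⟨i, -, rfl⟩ := hζ.eq_pow_of_pow_eq_one ht
  rw [map_pow, ← hm, ← pow_mul, ← pow_mul, mul_comm]

variable {c χ : GQ → O}
  (hco : ∀ σ ∈ A.inertiaSubgroupIn ℚ, ∀ τ ∈ A.inertiaSubgroupIn ℚ, c (σ * τ) = χ σ * c τ + c σ)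
  (hχ : ∀ (g : GQ) (m : ℕ), (∀ t : QBar, t ^ 2 ^ n = 1 → g t = t ^ m) → (2 : O) ^ n ∣ χ g - (m : O))
  {F : IntermediateField ℚ QBar} [FiniteDimensional ℚ F]
  (hlev : ∀ σ ∈ A.inertiaSubgroupIn ℚ, (∀ x ∈ F, σ x = x) → (2 : O) ^ n ∣ c σ)

include hA hco hχ hlev in
/-- The radical of a functional of the cocycle, and its exponent. -/
theorem exists_exponent (φ : O →+ ZMod (2 ^ n)) :
    ∃ (β : QBar) (k : ℤ) (u : (fixRing A)ˣ), β ≠ 0 ∧
      (∀ σ ∈ A.inertiaSubgroupIn ℚ, σ β = pw ζ (φ (c σ)) * β) ∧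
      β ^ 2 ^ n = (2 : QBar) ^ k * ((u : fixRing A) : QBar) := by
  have : FiniteDimensional ℚ (IntermediateField.adjoin ℚ {ζ}) :=
    IntermediateField.adjoin.finiteDimensional (Algebra.IsIntegral.isIntegral ζ)
  obtain ⟨β, hβ0, hβ⟩ := exists_radical (A.inertiaSubgroupIn ℚ) (fun σ => pw ζ (φ (c σ)))
    (F ⊔ IntermediateField.adjoin ℚ {ζ})
    (fun σ _ => pow_mem (SetLike.le_def.mp le_sup_right
      (IntermediateField.mem_adjoin_simple_self ℚ ζ)) _)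
    (fun σ _ => pw_ne_zero hζ _)
    (fun σ hσ τ hτ => by
      obtain ⟨m, hm, hmall⟩ := exists_cycExp hζ σ
      rw [hco σ hσ τ hτ, map_add, phi_mul (hχ σ m hmall) rfl, pw_add hζ, map_pw hζ hm, mul_comm])
    (fun σ hσ hfix => by
      obtain ⟨t, ht⟩ := hlev σ hσ fun x hx => hfix x (SetLike.le_def.mp le_sup_left hx)
      have e : c σ = (2 ^ n : ℕ) • t := by rw [nsmul_eq_mul, ht]; push_cast; rfl
      rw [e, map_nsmul, nsmul_eq_mul, ZMod.natCast_self, zero_mul, pw, ZMod.val_zero, pow_zero])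
  have hfix : ∀ σ ∈ A.inertiaSubgroupIn ℚ, σ (β ^ 2 ^ n) = β ^ 2 ^ n := fun σ hσ => by
    rw [map_pow, hβ σ hσ, mul_pow, pw_pow hζ, one_mul]
  obtain ⟨k, u, hku⟩ := exists_zpow_mul_unit hA Nat.prime_two (pow_ne_zero _ hβ0) hfix
  exact ⟨β, k, u, hβ0, hβ, by simpa using hku⟩

/-! ## The obstruction -/

include hA hco hχ hlev in
/-- If conjugation by a decomposition element scales the class of the cocycle by `e`, where
`(e - 1) * δ' = 2 ^ (n - 1)`, then the exponent of a radical of `φ ∘ c` is even: compare the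
powers of `2` in the radicals of `φ (δ' * c)` and their translates. -/
private theorem even_exponent (hn : 1 ≤ n) {g : GQ} (hg : g ∈ A.decompositionSubgroup ℚ)
    {e b δ' : O}
    (hconj : ∀ σ ∈ A.inertiaSubgroupIn ℚ, χ g * c (g⁻¹ * σ * g) = e * c σ + (χ σ - 1) * b)
    (hδ : (e - 1) * δ' = 2 ^ (n - 1)) (φ : O →+ ZMod (2 ^ n)) {β₀ : QBar} {k₀ : ℤ}
    {u₀ : (fixRing A)ˣ} (hβ₀0 : β₀ ≠ 0)
    (hβ₀ : ∀ σ ∈ A.inertiaSubgroupIn ℚ, σ β₀ = pw ζ (φ (c σ)) * β₀)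
    (hk₀ : β₀ ^ 2 ^ n = (2 : QBar) ^ k₀ * ((u₀ : fixRing A) : QBar)) : Even k₀ := by
  set φ₁ : O →+ ZMod (2 ^ n) := φ.comp (AddMonoidHom.mulLeft δ') with hφ₁
  have hφ₁_apply : ∀ y, φ₁ y = φ (δ' * y) := fun _ => rfl
  -- a radical of `φ (δ' * c)`
  obtain ⟨β₁, k₁, u₁, hβ₁0, hβ₁, hk₁⟩ := exists_exponent hA hζ hco hχ hlev φ₁
  obtain ⟨m, hm, hmall⟩ := exists_cycExp hζ g
  have hconjI : ∀ σ ∈ A.inertiaSubgroupIn ℚ, g⁻¹ * σ * g ∈ A.inertiaSubgroupIn ℚ := fun σ hσ => by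
    have := (mem_inertia_smul_iff (g := g⁻¹) (A := A)).mpr hσ
    rwa [inv_inv, mem_decomposition_iff.mp (inv_mem hg)] at this
  -- the action on the translated radical
  have htr : ∀ σ ∈ A.inertiaSubgroupIn ℚ, σ (g β₁) =
      pw ζ (φ₁ (c σ) + ((2 ^ (n - 1) : ℕ) : ZMod (2 ^ n)) * φ (c σ) + φ₁ ((χ σ - 1) * b)) *
          g β₁ := by
    intro σ hσ
    have h1 : σ (g β₁) = g ((g⁻¹ * σ * g) β₁) := by
      rw [AlgEquiv.mul_apply, AlgEquiv.mul_apply]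
      exact (g.apply_symm_apply _).symm
    rw [h1, hβ₁ _ (hconjI σ hσ), map_mul, map_pw hζ hm, ← phi_mul (hχ g m hmall) rfl,
      hconj σ hσ, map_add]
    congr 3
    have e1 : δ' * (e * c σ) = δ' * c σ + (2 ^ (n - 1) : ℕ) • c σ := by
      rw [nsmul_eq_mul]
      push_cast
      linear_combination c σ * hδ
    rw [hφ₁_apply, e1, map_add, map_nsmul, nsmul_eq_mul]
    rfl
  -- the quotient `γ` fixed by inertia, by `δ' e = δ' + 2 ^ (n - 1)`
  set γ : QBar := g β₁ * (β₁ * β₀ ^ 2 ^ (n - 1) * pw ζ (φ₁ b))⁻¹ with hγ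
  have hden : β₁ * β₀ ^ 2 ^ (n - 1) * pw ζ (φ₁ b) ≠ 0 :=
    mul_ne_zero (mul_ne_zero hβ₁0 (pow_ne_zero _ hβ₀0)) (pw_ne_zero hζ _)
  have hγfix : ∀ σ ∈ A.inertiaSubgroupIn ℚ, σ γ = γ := by
    intro σ hσ
    obtain ⟨mσ, hmσ, hmσall⟩ := exists_cycExp hζ σ
    have hb : φ₁ ((χ σ - 1) * b) + φ₁ b = (mσ : ZMod (2 ^ n)) * φ₁ b := by
      rw [sub_mul, one_mul, map_sub, sub_add_cancel, phi_mul (hχ σ mσ hmσall) rfl]
    have e2 : σ (β₁ * β₀ ^ 2 ^ (n - 1) * pw ζ (φ₁ b)) =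
        pw ζ (φ₁ (c σ) + ((2 ^ (n - 1) : ℕ) : ZMod (2 ^ n)) * φ (c σ) + φ₁ ((χ σ - 1) * b)) *
          (β₁ * β₀ ^ 2 ^ (n - 1) * pw ζ (φ₁ b)) := by
      rw [map_mul, map_mul, map_pow, hβ₁ σ hσ, hβ₀ σ hσ, map_pw hζ hmσ, ← hb, pw_add hζ, mul_pow,
        ← pw_natCast_mul hζ, pw_add hζ, pw_add hζ]
      ring
    rw [hγ, map_mul, map_inv₀, htr σ hσ, e2, mul_inv]
    rw [← mul_assoc, mul_comm (pw ζ _) (g β₁), mul_assoc (g β₁),
      mul_inv_cancel₀ (pw_ne_zero hζ _), mul_one]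
  have hγ0 : γ ≠ 0 :=
    mul_ne_zero (fun h => hβ₁0 (g.injective (h.trans (map_zero g).symm))) (inv_ne_zero hden)
  obtain ⟨l, uγ, hl⟩ := exists_zpow_mul_unit hA Nat.prime_two hγ0 hγfix
  obtain ⟨u₁', hu₁'⟩ := exists_unit_map hg u₁
  -- comparing the powers of `2` in the `2 ^ n`-th powers: `k₀` is even
  have h2 : (2 : QBar) ≠ 0 := two_ne_zero
  have hkey : (2 : QBar) ^ k₁ * ((u₁' : fixRing A) : QBar) =
      (2 : QBar) ^ (l * (2 ^ n : ℕ) + k₁ + k₀ * (2 ^ (n - 1) : ℕ)) *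
        (((uγ ^ 2 ^ n * u₁ * u₀ ^ 2 ^ (n - 1) : (fixRing A)ˣ) : fixRing A) : QBar) := by
    have e3 : g β₁ = γ * (β₁ * β₀ ^ 2 ^ (n - 1) * pw ζ (φ₁ b)) := by
      rw [hγ, inv_mul_cancel_right₀ hden]
    clear_value γ
    have e4 : g (β₁ ^ 2 ^ n) = γ ^ 2 ^ n * β₁ ^ 2 ^ n * (β₀ ^ 2 ^ n) ^ 2 ^ (n - 1) := by
      rw [map_pow, e3, mul_pow, mul_pow, mul_pow, pw_pow hζ, mul_one, ← pow_mul β₀, ← pow_mul β₀,
        mul_comm (2 ^ (n - 1)), mul_assoc]
    rw [hk₁, hk₀, hl, map_mul, map_zpow₀, map_ofNat, ← hu₁'] at e4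
    rw [e4, zpow_add₀ h2, zpow_add₀ h2, zpow_mul, zpow_mul, zpow_natCast, zpow_natCast]
    push_cast
    ring
  have hexp := zpow_mul_unit_inj hA hkey
  refine ⟨-l, ?_⟩
  have e5 : ((2 ^ n : ℕ) : ℤ) = 2 * ((2 ^ (n - 1) : ℕ) : ℤ) := by
    have : 2 ^ n = 2 * 2 ^ (n - 1) := by rw [← pow_succ', Nat.sub_add_cancel hn]
    exact_mod_cast this
  have hp : ((2 ^ (n - 1) : ℕ) : ℤ) ≠ 0 := by positivity
  have : ((2 ^ (n - 1) : ℕ) : ℤ) * (2 * l + k₀) = 0 := by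
    rw [e5] at hexp
    linear_combination -hexp
  have := (mul_eq_zero.mp this).resolve_left hp
  omega

include hA in
/-- If inertia multiplies a square root `x` of `2 ^ v * w`, `w` odd, by the same signs as
`β₀ ^ 2 ^ (n - 1)`, then the exponent of `β₀` has the parity of `v`. -/
private theorem exists_exponent_eq_two_mul_add (hn : 1 ≤ n) {Δ : ℤ} {v : ℕ} {w : ℤ}
    (hΔ : Δ = 2 ^ v * w) (hw : ¬ (2 : ℤ) ∣ w) {x : QBar} (hx : x ^ 2 = (Δ : QBar))
    {φ : O →+ ZMod (2 ^ n)}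
    (hφ : ∀ σ ∈ A.inertiaSubgroupIn ℚ, σ x =
      (-1) ^ (ZMod.castHom (dvd_pow_self 2 (by omega : n ≠ 0)) (ZMod 2) (φ (c σ))).val * x)
    {β₀ : QBar} {k₀ : ℤ} {u₀ : (fixRing A)ˣ} (hβ₀0 : β₀ ≠ 0)
    (hβ₀ : ∀ σ ∈ A.inertiaSubgroupIn ℚ, σ β₀ = pw ζ (φ (c σ)) * β₀)
    (hk₀ : β₀ ^ 2 ^ n = (2 : QBar) ^ k₀ * ((u₀ : fixRing A) : QBar)) :
    ∃ j : ℤ, (v : ℤ) = j * 2 + k₀ := by
  have h2 : (2 : QBar) ≠ 0 := two_ne_zero
  set γ₀ : QBar := β₀ ^ 2 ^ (n - 1) with hγ₀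
  have hγ₀0 : γ₀ ≠ 0 := pow_ne_zero _ hβ₀0
  have hx0 : x ≠ 0 := by
    intro h
    rw [h, zero_pow two_ne_zero] at hx
    have : Δ = 0 := by exact_mod_cast hx.symm
    rw [hΔ] at this
    rcases mul_eq_zero.mp this with h' | h'
    · exact pow_ne_zero v two_ne_zero h'
    · exact hw (h' ▸ dvd_zero 2)
  have hyfix : ∀ σ ∈ A.inertiaSubgroupIn ℚ, σ (x * γ₀⁻¹) = x * γ₀⁻¹ := by
    intro σ hσ
    rw [map_mul, map_inv₀, hφ σ hσ, hγ₀, map_pow, hβ₀ σ hσ, mul_pow, pw_half hζ hn, mul_inv]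
    rw [show ∀ a b d : QBar, a * b * (a⁻¹ * d) = (a * a⁻¹) * (b * d) from fun a b d => by ring,
      mul_inv_cancel₀ (pow_ne_zero _ (by norm_num : (-1 : QBar) ≠ 0)), one_mul]
  obtain ⟨j, uy, hj⟩ := exists_zpow_mul_unit hA Nat.prime_two
    (mul_ne_zero hx0 (inv_ne_zero hγ₀0)) hyfix
  obtain ⟨uw, huw⟩ := exists_odd_unit hA hw
  have hkey2 : (2 : QBar) ^ (v : ℤ) * ((uw : fixRing A) : QBar) =
      (2 : QBar) ^ (j * 2 + k₀) * (((uy ^ 2 * u₀ : (fixRing A)ˣ) : fixRing A) : QBar) := by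
    have e6 : x ^ 2 = (x * γ₀⁻¹) ^ 2 * β₀ ^ 2 ^ n := by
      have : γ₀ ^ 2 = β₀ ^ 2 ^ n := by
        rw [hγ₀, ← pow_mul, ← pow_succ, Nat.sub_add_cancel hn]
      rw [← this, mul_pow, mul_assoc, ← mul_pow, inv_mul_cancel₀ hγ₀0, one_pow, mul_one]
    rw [hx, hk₀, hj, hΔ] at e6
    push_cast at e6
    rw [huw, zpow_natCast, e6]
    push_cast
    rw [mul_pow, zpow_add₀ h2, zpow_mul, zpow_ofNat]
    ring
  exact ⟨j, zpow_mul_unit_inj hA hkey2⟩

include hA hco hχ hlev in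
/-- **The obstruction**: a cocycle whose class moves by a factor `e` congruent to one but not
equal to one cannot reduce to the square root of a number of odd valuation. -/
theorem false_of_cocycle (hn : 1 ≤ n) {g : GQ} (hg : g ∈ A.decompositionSubgroup ℚ) {e b δ' : O}
    (hconj : ∀ σ ∈ A.inertiaSubgroupIn ℚ, χ g * c (g⁻¹ * σ * g) = e * c σ + (χ σ - 1) * b)
    (hδ : (e - 1) * δ' = 2 ^ (n - 1)) {Δ : ℤ} {v : ℕ} {w : ℤ} (hΔ : Δ = 2 ^ v * w) (hv : Odd v)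
    (hw : ¬ (2 : ℤ) ∣ w) {x : QBar} (hx : x ^ 2 = (Δ : QBar)) (φ : O →+ ZMod (2 ^ n))
    (hφ : ∀ σ ∈ A.inertiaSubgroupIn ℚ, σ x =
      (-1) ^ (ZMod.castHom (dvd_pow_self 2 (by omega : n ≠ 0)) (ZMod 2) (φ (c σ))).val * x) :
    False := by
  obtain ⟨β₀, k₀, u₀, hβ₀0, hβ₀, hk₀⟩ := exists_exponent hA hζ hco hχ hlev φ
  obtain ⟨q', hq'⟩ := even_exponent hA hζ hco hχ hlev hn hg hconj hδ φ hβ₀0 hβ₀ hk₀
  -- but `x / β₀ ^ 2 ^ (n - 1)` is fixed as well, so `k₀` has the parity of `v`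
  obtain ⟨j, hj⟩ := exists_exponent_eq_two_mul_add hA hζ hn hΔ hw hx hφ hβ₀0 hβ₀ hk₀
  obtain ⟨q, hq⟩ := hv
  omega

end Fermat.Agent.LT.AtTwo

end
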