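import Fermat.Agent.LT.AtTwo.Kummer
import Fermat.Agent.LT.AtTwo.Lines
import Mathlib.LinearAlgebra.FreeModule.PID
import Mathlib.Algebra.Algebra.ZMod
import Mathlib.RingTheory.RootsOfUnity.AlgebraicallyClosed

/-!
# The quotient character at two squares to one

For a representation over a finite extension of `ℤ_2` which is triangular on the decomposition
group with unramified quotient, whose residual image of inertia is cut out by the square root of a
number of odd valuation, the quotient character squares to one.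
-/

set_option autoImplicit false

noncomputable section

open Matrix

namespace Fermat.Agent.LT.AtTwo

open Fermat.Agent.Arith Fermat.Agent.OrdinaryAtP
open Fermat.Agent.LT.Deform (M2)

variable {O : Type} [CommRing O] [IsDomain O] [IsDiscreteValuationRing O] [Algebra ℤ_[2] O]
  [Module.Finite ℤ_[2] O] (hinj : Function.Injective (algebraMap ℤ_[2] O))
  (h2 : (2 : O) ∈ IsLocalRing.maximalIdeal O)

include h2 in
omit [Algebra ℤ_[2] O] [Module.Finite ℤ_[2] O] in
theorem charP_residue : CharP (IsLocalRing.ResidueField O) 2 := by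
  refine (CharP.charP_iff_prime_eq_zero Nat.prime_two).mpr ?_
  rw [← map_natCast (IsLocalRing.residue O), Nat.cast_ofNat, IsLocalRing.residue_eq_zero_iff]
  exact h2

include h2 hinj in
/-- An integral functional with prescribed parity. -/
theorem exists_functional (n : ℕ) (hn : n ≠ 0) {lam : IsLocalRing.ResidueField O} (hlam : lam ≠ 0) :
    ∃ φ : O →+ ZMod (2 ^ n), ∀ y : O,
      (IsLocalRing.residue O y = 0 →
        ZMod.castHom (dvd_pow_self 2 hn) (ZMod 2) (φ y) = 0) ∧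
      (IsLocalRing.residue O y = lam →
        ZMod.castHom (dvd_pow_self 2 hn) (ZMod 2) (φ y) = 1) := by
  classical
  have := charP_residue h2
  let := ZMod.algebra (IsLocalRing.ResidueField O) 2
  have : Module.IsTorsionFree ℤ_[2] O := Module.isTorsionFree_iff_algebraMap_injective.mpr hinj
  have : Module.Free ℤ_[2] O := Module.free_of_finite_type_torsion_free'
  -- a linear form `f` with `f lam = 1`, and `ψ` lifting `f ∘ residue`
  obtain ⟨f, hf⟩ := LinearMap.exists_leftInverse_of_injective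
    (LinearMap.toSpanSingleton (ZMod 2) (IsLocalRing.ResidueField O) lam)
    (LinearMap.ker_eq_bot.mpr fun a b e => smul_left_injective (ZMod 2) hlam e)
  have hf1 : f lam = 1 := by
    have := LinearMap.congr_fun hf 1
    simpa using this
  let b := Module.Free.chooseBasis ℤ_[2] O
  have : Fintype (Module.Free.ChooseBasisIndex ℤ_[2] O) := inferInstance
  let ψ : O →ₗ[ℤ_[2]] ℤ_[2] :=
    b.constr ℤ_[2] fun i => ((f (IsLocalRing.residue O (b i))).val : ℤ_[2])
  let j : ZMod 2 →+* IsLocalRing.ResidueField O := ZMod.castHom dvd_rfl _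
  have hz : ∀ z : ℤ_[2], IsLocalRing.residue O (algebraMap ℤ_[2] O z) = j (PadicInt.toZMod z) := by
    intro z
    obtain ⟨t, ht⟩ := (PadicInt.maximalIdeal_eq_span_p (p := 2) ▸ PadicInt.toZMod_spec z :
      z - (ZMod.cast (PadicInt.toZMod z) : ℤ_[2]) ∈ Ideal.span {((2 : ℕ) : ℤ_[2])}) |>
      Ideal.mem_span_singleton'.mp
    have e : algebraMap ℤ_[2] O z =
        ((PadicInt.toZMod z).val : O) + algebraMap ℤ_[2] O t * 2 := by
      rw [← map_natCast (algebraMap ℤ_[2] O), ← map_ofNat (algebraMap ℤ_[2] O) 2, ← map_mul,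
        ← map_add]
      congr 1
      rw [ZMod.natCast_val]
      push_cast at ht
      linear_combination -ht
    rw [e, map_add, map_mul, (IsLocalRing.residue_eq_zero_iff (2 : O)).mpr h2, mul_zero, add_zero,
      map_natCast, ← map_natCast j, ZMod.natCast_zmod_val]
  have hcast : ∀ z : ℤ_[2],
      ZMod.castHom (dvd_pow_self 2 hn) (ZMod 2) (PadicInt.toZModPow n z) = PadicInt.toZMod z := by
    intro z
    have h1 : RingHom.ker ((ZMod.castHom (dvd_pow_self 2 hn) (ZMod 2)).comp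
        (PadicInt.toZModPow (p := 2) n)) = IsLocalRing.maximalIdeal ℤ_[2] :=
      IsLocalRing.eq_maximalIdeal (RingHom.ker_isMaximal_of_surjective _
        fun a => by
          obtain ⟨k, rfl⟩ := ZMod.natCast_zmod_surjective a
          exact ⟨k, map_natCast _ k⟩)
    have h2' := PadicInt.toZMod_spec z
    rw [← h1, RingHom.mem_ker, map_sub, sub_eq_zero, RingHom.comp_apply] at h2'
    rw [h2', ZMod.cast_eq_val, map_natCast, ZMod.natCast_zmod_val]
  have hψ : ∀ y : O, PadicInt.toZMod (ψ y) = f (IsLocalRing.residue O y) := by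
    intro y
    have key : ∀ (z : ℤ_[2]) (u : IsLocalRing.ResidueField O),
        f (j (PadicInt.toZMod z) * u) = PadicInt.toZMod z * f u := fun z u => by
      rw [← smul_eq_mul (PadicInt.toZMod z), ← map_smul, Algebra.smul_def]
      rfl
    conv_rhs => rw [← b.sum_repr y]
    simp only [ψ, Module.Basis.constr_apply_fintype, map_sum, Module.Basis.equivFun_apply]
    refine Finset.sum_congr rfl fun i _ => ?_
    rw [smul_eq_mul, map_mul, map_natCast, ZMod.natCast_zmod_val, Algebra.smul_def, map_mul, hz,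
      key]
  refine ⟨(PadicInt.toZModPow (p := 2) n).toAddMonoidHom.comp ψ.toAddMonoidHom, fun y => ⟨?_, ?_⟩⟩
  · intro hy
    show ZMod.castHom _ _ (PadicInt.toZModPow n (ψ y)) = 0
    rw [hcast, hψ, hy, map_zero]
  · intro hy
    show ZMod.castHom _ _ (PadicInt.toZModPow n (ψ y)) = 1
    rw [hcast, hψ, hy, hf1]

variable {A : ValuationSubring QBar} (hA : A.LiesOverPrime 2)

include hA in
/-- Some inertia element moves the square root of a number of odd valuation. -/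
theorem exists_moving {Δ : ℤ} {v : ℕ} {w : ℤ} (hΔ : Δ = 2 ^ v * w) (hv : Odd v)
    (hw : ¬ (2 : ℤ) ∣ w) {x : QBar} (hx : x ^ 2 = (Δ : QBar)) :
    ∃ τ ∈ A.inertiaSubgroupIn ℚ, τ x ≠ x := by
  by_contra! hall
  have hx0 : x ≠ 0 := by
    intro h
    rw [h, zero_pow two_ne_zero] at hx
    have : Δ = 0 := by exact_mod_cast hx.symm
    rw [hΔ] at this
    rcases mul_eq_zero.mp this with h' | h'
    · exact pow_ne_zero v two_ne_zero h'
    · exact hw (h' ▸ dvd_zero 2)
  obtain ⟨k, u, hk⟩ := exists_zpow_mul_unit hA Nat.prime_two hx0 hall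
  obtain ⟨uw, huw⟩ := exists_odd_unit hA hw
  have e : (2 : QBar) ^ (v : ℤ) * ((uw : fixRing A) : QBar) =
      (2 : QBar) ^ (k * 2) * (((u ^ 2 : (fixRing A)ˣ) : fixRing A) : QBar) := by
    rw [hk, hΔ] at hx
    push_cast at hx
    rw [huw, zpow_natCast, ← hx]
    push_cast
    rw [mul_pow, _root_.zpow_mul, zpow_ofNat]
  obtain ⟨q, hq⟩ := hv
  have := zpow_mul_unit_inj hA e
  omega

omit [IsDomain O] [IsDiscreteValuationRing O] [Algebra ℤ_[2] O] [Module.Finite ℤ_[2] O] in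
/-- On inertia the upper right entry of a triangular representation with trivial quotient is a
cocycle for the determinant. -/
private theorem apply_mul_zero_one (ρ : GQ →* M2 O)
    (hI : ∀ σ ∈ A.inertiaSubgroupIn ℚ, ρ σ 1 0 = 0 ∧ ρ σ 1 1 = 1) {σ τ : GQ}
    (hσ : σ ∈ A.inertiaSubgroupIn ℚ) (hτ : τ ∈ A.inertiaSubgroupIn ℚ) :
    ρ (σ * τ) 0 1 = (ρ σ).det * ρ τ 0 1 + ρ σ 0 1 := by
  rw [map_mul, Matrix.mul_apply, Fin.sum_univ_two, Matrix.det_fin_two, (hI σ hσ).1,
    (hI σ hσ).2, (hI τ hτ).2]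
  ring

include hA h2 in
omit [Algebra ℤ_[2] O] [Module.Finite ℤ_[2] O] in
/-- Residually the upper right entry on inertia is `0` where `σ` fixes `x` and takes one nonzero
value elsewhere. -/
private theorem exists_residue_values (ρ : GQ →* M2 O) {r : GQ →* (M2 (ZMod 2))ˣ}
    (hr : Function.Surjective r)
    (hres : ∀ g, (ρ g).trace - ((r g : M2 (ZMod 2)).trace.val : O) ∈ IsLocalRing.maximalIdeal O)
    {Δ : ℤ} {v : ℕ} {w : ℤ} (hΔ : Δ = 2 ^ v * w) (hv : Odd v) (hw : ¬ (2 : ℤ) ∣ w) {x : QBar}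
    (hx : x ^ 2 = (Δ : QBar)) (hrx : ∀ g ∈ A.inertiaSubgroupIn ℚ, r g = 1 ↔ g x = x)
    (hI : ∀ σ ∈ A.inertiaSubgroupIn ℚ, ρ σ 1 0 = 0 ∧ ρ σ 1 1 = 1) :
    ∃ τ ∈ A.inertiaSubgroupIn ℚ, τ x ≠ x ∧ IsLocalRing.residue O (ρ τ 0 1) ≠ 0 ∧
      ∀ σ ∈ A.inertiaSubgroupIn ℚ, (σ x = x → IsLocalRing.residue O (ρ σ 0 1) = 0) ∧
        (σ x ≠ x → IsLocalRing.residue O (ρ σ 0 1) = IsLocalRing.residue O (ρ τ 0 1)) := by
  have := charP_residue h2
  set res := IsLocalRing.residue O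
  let ρb : GQ →* M2 (IsLocalRing.ResidueField O) := res.mapMatrix.toMonoidHom.comp ρ
  have hρb : ∀ h i j, ρb h i j = res (ρ h i j) := fun _ _ _ => rfl
  have hresb : ∀ h, (ρb h).trace =
      ((r h : M2 (ZMod 2)).trace.val : IsLocalRing.ResidueField O) := by
    intro h
    have := (IsLocalRing.residue_eq_zero_iff _).mpr (hres h)
    rw [map_sub, map_natCast, sub_eq_zero] at this
    rw [← this]
    exact (AddMonoidHom.map_trace res.toAddMonoidHom _).symm
  -- residually on inertia `ρ σ 0 1` is `0` where `σ` fixes `x` and one value `≠ 0` elsewhere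
  have hfixres : ∀ σ ∈ A.inertiaSubgroupIn ℚ, σ x = x → res (ρ σ 0 1) = 0 := fun σ hσ hσx => by
    have h1 := ((eq_one_iff hr hresb σ).mpr ((hrx σ hσ).mpr hσx))
    rw [← hρb, h1]
    rfl
  have hpm : ∀ σ : GQ, σ x = x ∨ σ x = -x := fun σ => sq_eq_sq_iff_eq_or_eq_neg.mp (by
    rw [← map_pow, hx, map_intCast])
  have hsq : ∀ σ : GQ, σ (σ x) = x := fun σ => by
    rcases hpm σ with h | h <;> simp [h]
  have h00 : ∀ σ ∈ A.inertiaSubgroupIn ℚ, res (ρ σ 0 0) = 1 := by
    intro σ hσ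
    have h1 := (eq_one_iff hr hresb (σ * σ)).mpr ((hrx _ (mul_mem hσ hσ)).mpr
      (by rw [AlgEquiv.mul_apply, hsq]))
    have h3 := congrFun (congrFun h1 0) 0
    rw [map_mul, Matrix.mul_apply, Fin.sum_univ_two, hρb, hρb, hρb, (hI σ hσ).1, map_zero,
      mul_zero, add_zero, Matrix.one_apply_eq] at h3
    rcases mul_self_eq_one_iff.mp h3 with h | h
    · exact h
    · rw [h, CharTwo.neg_eq]
  obtain ⟨τ, hτ, hτx⟩ := exists_moving hA hΔ hv hw hx
  have hlam : res (ρ τ 0 1) ≠ 0 := by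
    intro h0
    refine hτx ((hrx τ hτ).mp ((eq_one_iff hr hresb τ).mp ?_))
    ext i j
    fin_cases i <;> fin_cases j <;>
      simp [hρb, h0, h00 τ hτ, (hI τ hτ).1, (hI τ hτ).2]
  have hmov : ∀ σ ∈ A.inertiaSubgroupIn ℚ, σ x ≠ x → res (ρ σ 0 1) = res (ρ τ 0 1) := by
    intro σ hσ hσx
    have h1 : (σ * τ) x = x := by
      rw [AlgEquiv.mul_apply, (hpm τ).resolve_left hτx, map_neg, (hpm σ).resolve_left hσx, neg_neg]
    have h3 := hfixres _ (mul_mem hσ hτ) h1
    rw [apply_mul_zero_one ρ hI hσ hτ, map_add, map_mul, Matrix.det_fin_two, (hI σ hσ).1,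
      (hI σ hσ).2, mul_zero, sub_zero, mul_one, h00 σ hσ, one_mul] at h3
    rw [← CharTwo.neg_eq (res (ρ τ 0 1))]
    exact eq_neg_of_add_eq_zero_right h3
  exact ⟨τ, hτ, hτx, hlam, fun σ hσ => ⟨hfixres σ hσ, hmov σ hσ⟩⟩

include hA hinj h2 in
/-- **The quotient character squares to one.** -/
theorem sq_eq_one (ρ : GQ →* M2 O) {r : GQ →* (M2 (ZMod 2))ˣ} (hr : Function.Surjective r)
    (hres : ∀ g, (ρ g).trace - ((r g : M2 (ZMod 2)).trace.val : O) ∈ IsLocalRing.maximalIdeal O)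
    {Δ : ℤ} {v : ℕ} {w : ℤ} (hΔ : Δ = 2 ^ v * w) (hv : Odd v) (hw : ¬ (2 : ℤ) ∣ w) {x : QBar}
    (hx : x ^ 2 = (Δ : QBar)) (hrx : ∀ g ∈ A.inertiaSubgroupIn ℚ, r g = 1 ↔ g x = x)
    (hI : ∀ σ ∈ A.inertiaSubgroupIn ℚ, ρ σ 1 0 = 0 ∧ ρ σ 1 1 = 1)
    (hD : ∀ g ∈ A.decompositionSubgroup ℚ, ρ g 1 0 = 0)
    (hcont : ∀ M : ℕ, ∃ F : IntermediateField ℚ QBar, FiniteDimensional ℚ F ∧
      ∀ g : GQ, (∀ y ∈ F, g y = y) → ∀ i j, (2 : O) ^ M ∣ ρ g i j - (1 : M2 O) i j)
    (hdet : ∀ (g : GQ) (m n : ℕ), (∀ t : QBar, t ^ (2 ^ n) = 1 → g t = t ^ m) →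
      (2 : O) ^ n ∣ (ρ g).det - (m : O))
    (g : GQ) (hg : g ∈ A.decompositionSubgroup ℚ) : ρ g 1 1 * ρ g 1 1 = 1 := by
  have hpm : ∀ σ : GQ, σ x = x ∨ σ x = -x := fun σ => sq_eq_sq_iff_eq_or_eq_neg.mp (by
    rw [← map_pow, hx, map_intCast])
  obtain ⟨τ, hτ, hτx, hlam, hres01⟩ :=
    exists_residue_values h2 hA ρ hr hres hΔ hv hw hx hrx hI
  -- the precision: if `e = (ρ g 1 1)² ≠ 1` then `(e - 1) * δ' = 2 ^ a`; work modulo `2 ^ (a + 1)`
  by_contra hne
  obtain ⟨π, hπ⟩ := IsDiscreteValuationRing.exists_irreducible O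
  obtain ⟨a, ha⟩ := IsDiscreteValuationRing.associated_pow_irreducible (sub_ne_zero.mpr hne) hπ
  have hdvd : ρ g 1 1 * ρ g 1 1 - 1 ∣ (2 : O) ^ a := by
    refine ha.dvd.trans (pow_dvd_pow_of_dvd ?_ a)
    rw [← Ideal.mem_span_singleton, ← (IsDiscreteValuationRing.irreducible_iff_uniformizer π).mp hπ]
    exact h2
  obtain ⟨δ', hδ'⟩ := hdvd
  obtain ⟨ζ, hζ⟩ : ∃ ζ : QBar, IsPrimitiveRoot ζ (2 ^ (a + 1)) :=
    haveI : NeZero ((2 ^ (a + 1) : ℕ) : QBar) := ⟨Nat.cast_ne_zero.mpr (pow_ne_zero _ two_ne_zero)⟩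
    HasEnoughRootsOfUnity.exists_primitiveRoot QBar _
  obtain ⟨φ, hφ⟩ := exists_functional hinj h2 (a + 1) (Nat.succ_ne_zero a) hlam
  obtain ⟨F, hF, hFc⟩ := hcont (a + 1)
  have := hF
  refine false_of_cocycle (c := fun σ => ρ σ 0 1) (χ := fun σ => (ρ σ).det) hA hζ
    (fun σ hσ τ hτ => apply_mul_zero_one ρ hI hσ hτ)
    (fun h m hm => hdet h m (a + 1) hm) (F := F)
    (fun σ _ hfix => by simpa using hFc σ hfix 0 1) (Nat.le_add_left 1 a) hg
    (e := ρ g 1 1 * ρ g 1 1) (b := ρ g 1 1 * ρ g 0 1) (δ' := δ') ?_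
    (by rw [Nat.add_sub_cancel]; exact hδ'.symm) hΔ hv hw hx φ ?_
  · intro σ hσ
    have hc : g⁻¹ * σ * g ∈ A.inertiaSubgroupIn ℚ := by
      have := (mem_inertia_smul_iff (g := g⁻¹) (A := A)).mpr hσ
      rwa [inv_inv, mem_decomposition_iff.mp (inv_mem hg)] at this
    have hmul : ρ g * ρ (g⁻¹ * σ * g) = ρ σ * ρ g := by
      rw [← map_mul, ← map_mul]
      congr 1
      group
    have e01 := congrFun (congrFun hmul 0) 1
    simp only [Matrix.mul_apply, Fin.sum_univ_two, (hI _ hc).2, mul_one] at e01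
    rw [Matrix.det_fin_two, Matrix.det_fin_two, hD g hg, (hI σ hσ).1, (hI σ hσ).2]
    linear_combination ρ g 1 1 * e01
  · intro σ hσ
    rcases hpm σ with h | h
    · rw [(hφ _).1 ((hres01 σ hσ).1 h), h]
      simp
    · have hne' : σ x ≠ x := fun e => by
        rw [h] at e
        have hx0 : x = 0 := by linear_combination -e / 2
        exact hτx (by rw [hx0, map_zero])
      rw [(hφ _).2 ((hres01 σ hσ).2 hne'), h, show ((1 : ZMod 2)).val = 1 from rfl, pow_one,
        neg_one_mul]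

end Fermat.Agent.LT.AtTwo

end
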