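import Fermat.Agent.LT.AtTwo.Connected
import Fermat.Agent.LT.AtTwo.Quotient
import Fermat.Agent.LT.Points.Compare
import Fermat.Agent.Newforms.Restrict
import Fermat.Agent.CFT.Flat.Norm
import Fermat.Agent.GaloisReps.Characters

/-!
# The line at two

`exists_lineAt_two`: a `2`-adic representation with cyclotomic determinant, attached to an eigen
system of a level not divisible by `4`, with surjective residual image whose inertia at `2` is cut
out by the square root of a number of odd valuation, has a line on the decomposition group at `2`,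
with character `ε det` and quotient character `ε`, where `ε` is unramified. It is used in
`LT/Points/Final`.
-/

set_option autoImplicit false

noncomputable section

open Matrix

namespace Fermat.Agent.LT.AtTwo

open Fermat.Agent.Arith
open Fermat.Agent.LT.Deform (M2 LineAt)
open Fermat.Agent.LT.Points (K2 A2 toK2 toK2_mem Continuous2 mapRep redPow FiniteLevel)
open Fermat.Agent.LT.Selmer (dec)
open Fermat.Agent.CFT.Flat (inG)
open Fermat.Agent.GaloisReps (FullHecke)

/-! ## Coefficients -/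

section Coeff

variable {O : Type} [CommRing O] [IsDomain O] [IsDiscreteValuationRing O] (j : O →+* A2)
  (h2 : (2 : O) ∈ IsLocalRing.maximalIdeal O)

/-- A nonunit stays a nonunit. -/
theorem map_mem_maximal {c : O} (hc : c ∈ IsLocalRing.maximalIdeal O) :
    j c ∈ IsLocalRing.maximalIdeal A2 := by
  have h2A : (2 : A2) ∈ IsLocalRing.maximalIdeal A2 := by
    rw [← IsLocalRing.residue_eq_zero_iff, map_ofNat]
    exact CharTwo.two_eq_zero
  obtain ⟨π, hπ⟩ := IsDiscreteValuationRing.exists_irreducible O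
  have hm := (IsDiscreteValuationRing.irreducible_iff_uniformizer π).mp hπ
  by_cases h20 : (2 : O) = 0
  · exfalso
    have := congrArg j h20
    rw [map_ofNat, map_zero] at this
    exact two_ne_zero this
  obtain ⟨e, he⟩ := IsDiscreteValuationRing.associated_pow_irreducible h20 hπ
  have hjπ : j π ∈ IsLocalRing.maximalIdeal A2 := by
    refine Ideal.IsPrime.mem_of_pow_mem (IsLocalRing.maximalIdeal.isMaximal A2).isPrime e ?_
    obtain ⟨u, hu⟩ := he
    rw [← map_pow, ← hu, map_mul, map_ofNat]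
    exact Ideal.mul_mem_right _ _ h2A
  rw [hm, Ideal.mem_span_singleton] at hc
  obtain ⟨d, rfl⟩ := hc
  rw [map_mul]
  exact Ideal.mul_mem_right _ _ hjπ

/-- Membership in the maximal ideal descends. -/
theorem mem_maximal_of_map {z : O} (hz : j z ∈ IsLocalRing.maximalIdeal A2) :
    z ∈ IsLocalRing.maximalIdeal O := by
  rw [IsLocalRing.mem_maximalIdeal, mem_nonunits_iff] at hz ⊢
  exact fun h => hz (h.map j)

/-- Divisibility by powers of two descends. -/
theorem two_pow_dvd_of_map {z : O} (n : ℕ) (hz : (2 : A2) ^ n ∣ j z) : (2 : O) ^ n ∣ z := by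
  rcases ValuationRing.dvd_total z ((2 : O) ^ n) with h | h
  · obtain ⟨c, hc⟩ := h
    by_cases hcu : IsUnit c
    · exact ⟨↑hcu.unit⁻¹, by rw [hc, mul_assoc, IsUnit.mul_val_inv, mul_one]⟩
    · exfalso
      obtain ⟨a, ha⟩ := hz
      have h1 := congrArg j hc
      rw [map_pow, map_ofNat, map_mul, ha, mul_assoc] at h1
      have h20 : (2 : A2) ^ n ≠ 0 := pow_ne_zero _ two_ne_zero
      have h3 : a * j c = 1 := mul_left_cancel₀ h20 (by rw [← h1, mul_one])
      refine (IsLocalRing.maximalIdeal.isMaximal A2).ne_top ((Ideal.eq_top_iff_one _).mpr ?_)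
      rw [← h3]
      exact Ideal.mul_mem_left _ _ (map_mem_maximal j ((IsLocalRing.mem_maximalIdeal c).mpr hcu))
  · exact h

end Coeff

/-! ## The plane of a Hecke character -/

/-- The odd part times nine. -/
theorem exists_level {L : ℕ} [NeZero L] (h4 : ¬ 4 ∣ L) :
    ∃ M : ℕ, M ≠ 0 ∧ ¬ 2 ∣ M ∧ 9 ∣ M ∧ L ∣ 2 * M := by
  have hL := NeZero.ne L
  rcases Nat.even_or_odd' L with ⟨k, rfl | rfl⟩
  · exact ⟨9 * k, by omega, fun h => h4 (by omega), dvd_mul_right 9 k,
      mul_dvd_mul_left 2 (dvd_mul_left k 9)⟩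
  · exact ⟨9 * (2 * k + 1), by omega, by omega, dvd_mul_right 9 _,
      dvd_mul_of_dvd_right (dvd_mul_left _ 9) 2⟩

/-- Congruences to the identity modulo every power of two give continuity. -/
private theorem continuous2_of_dvd {ρ : GQ →* M2 A2}
    (hcont : ∀ M : ℕ, ∃ F : IntermediateField ℚ QBar, FiniteDimensional ℚ F ∧
      ∀ g : GQ, (∀ y ∈ F, g y = y) → ∀ i j, (2 : A2) ^ M ∣ ρ g i j - (1 : M2 A2) i j) :
    Continuous2 ρ := fun n => by
  obtain ⟨F, hF, hFc⟩ := hcont n
  refine ⟨F, hF, fun g hg => ?_⟩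
  rw [← map_one (redPow n).mapMatrix]
  ext i k
  exact Ideal.Quotient.eq.mpr (Ideal.mem_span_singleton.mpr (hFc g hg i k))

/-- The trace of a product with two translated factors, through the traces of a representation. -/
private theorem trace_mul_sub_smul {R : Type} [CommRing R] (φ : GQ →* M2 R) (a b : R)
    (k g h : GQ) :
    (φ k * ((φ g - a • 1) * (φ h - b • 1))).trace =
      (φ (k * g * h)).trace - b * (φ (k * g)).trace - a * (φ (k * h)).trace +
        a * b * (φ k).trace := by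
  simp only [map_mul, mul_sub, sub_mul, smul_mul_assoc, mul_smul_comm, one_mul, mul_one,
    smul_sub, smul_smul, Matrix.trace_sub, Matrix.trace_smul, smul_eq_mul, mul_assoc]
  ring

/-- A matrix reduces to the identity when its distance to it lies in the maximal ideal. -/
private theorem residue_mapMatrix_eq_one_iff {R : Type} [CommRing R] [IsLocalRing R] (X : M2 R) :
    (IsLocalRing.residue R).mapMatrix X = 1 ↔
      ∀ i k, (X - 1 : M2 R) i k ∈ IsLocalRing.maximalIdeal R := by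
  have e : ∀ i k, IsLocalRing.residue R ((X - 1 : M2 R) i k) =
      (IsLocalRing.residue R).mapMatrix X i k - (1 : M2 _) i k := fun i k => by
    rw [RingHom.mapMatrix_apply, Matrix.map_apply, Matrix.sub_apply, map_sub]
    congr 1
    by_cases hik : i = k <;> simp [Matrix.one_apply, hik]
  constructor
  · intro h1 i k
    rw [← IsLocalRing.residue_eq_zero_iff, e, h1, sub_self]
  · intro h1
    ext i k
    exact sub_eq_zero.mp (by rw [← e]; exact (IsLocalRing.residue_eq_zero_iff _).mpr (h1 i k))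

/-- An automorphism applied twice fixes a square root of an integer. -/
private theorem apply_apply_of_sq {Δ : ℤ} {x : QBar} (hx : x ^ 2 = (Δ : QBar)) (σ : GQ) :
    σ (σ x) = x := by
  have hpm : σ x = x ∨ σ x = -x := sq_eq_sq_iff_eq_or_eq_neg.mp (by
    rw [← map_pow, hx, map_intCast])
  rcases hpm with h | h <;> simp [h]

/-- The trace of a Frobenius element on the plane is the value of the Hecke operator. -/
private theorem trace_planeRep_frobenius {M : ℕ} [NeZero M] [NeZero (2 * M)] {O : Type} [CommRing O]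
    [IsDomain O] [IsDiscreteValuationRing O] [CharZero O] [Algebra ℤ_[2] O]
    (θ : FullHecke (2 * M) →+* O) (h2O : ((2 : ℕ) : O) ∈ IsLocalRing.maximalIdeal O) {l : ℕ}
    (hl : l.Prime) (hlN : ¬ l ∣ 2 * M * 2) {B : ValuationSubring QBar} (hB : B.LiesOverPrime l)
    {σ : GQ} (hσ : B.IsFrobeniusAt σ l) :
    (planeRep θ σ).trace = θ (HeckeDuality.heckeOp (2 * M) 2 l hl) := by
  have hc := (model (2 * M)).charpoly_eigenAction_frobenius (algebraMap ℤ_[2] O) θ
    h2O hl hlN hB hσ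
  rw [← LinearMap.charpoly_toMatrix _ ((model (2 * M)).eigenBasis θ), Matrix.charpoly_fin_two] at hc
  have h1 := congrArg (fun q => q.coeff 1) hc
  simp only [Polynomial.coeff_add, Polynomial.coeff_sub, Polynomial.coeff_X_pow,
    Polynomial.coeff_C_mul, Polynomial.coeff_X, Polynomial.coeff_C] at h1
  norm_num at h1
  exact h1

/-- Congruences over the coefficient ring give continuity over `A2`. -/
private theorem continuous2_mapRep {O : Type} [CommRing O] (j : O →+* A2) {ρ₀ : GQ →* M2 O}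
    (hcont : ∀ n : ℕ, ∃ F : IntermediateField ℚ QBar, FiniteDimensional ℚ F ∧
      ∀ g : GQ, (∀ y ∈ F, g y = y) → ∀ i k, (2 : O) ^ n ∣ ρ₀ g i k - (1 : M2 O) i k) :
    Continuous2 (mapRep j ρ₀) := continuous2_of_dvd fun n => by
  obtain ⟨F, hF, hFc⟩ := hcont n
  refine ⟨F, hF, fun g hg i k => ?_⟩
  have := map_dvd j (hFc g hg i k)
  rw [map_pow, map_ofNat, map_sub] at this
  rw [Points.mapRep_apply, Matrix.map_apply]
  convert this using 2
  by_cases hik : i = k
  · subst hik; simp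
  · simp [Matrix.one_apply_ne hik]

/-- A line of a representation passes to one with the images of its traces and determinants. -/
private theorem lineAt_of_map {O : Type} [CommRing O] (j : O →+* A2) {ρ' : GQ →* M2 O}
    {ρ : GQ →* M2 A2} {r : GQ →* (M2 (ZMod 2))ˣ} (hr : Function.Surjective r)
    (hres : ∀ g : GQ,
      ‖(((ρ g).trace : A2) : K2) - ((r g : M2 (ZMod 2)).trace.val : K2)‖₊ < 1)
    (htr : ∀ g, j (ρ' g).trace = (ρ g).trace) (hdet : ∀ g, j (ρ' g).det = (ρ g).det) {D : Set GQ}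
    {ε : GQ → O} (hline : LineAt ρ' D ε) : LineAt ρ D fun g => j (ε g) := by
  refine ⟨fun g hg h hh => ?_, fun g hg => ?_⟩
  · refine eq_zero_of_trace (S := A2) hr ?_ (ρ := ρ) (fun k => ?_) fun k => ?_
    · rw [← IsLocalRing.residue_eq_zero_iff, map_ofNat]
      exact CharTwo.two_eq_zero
    · rw [← IsLocalRing.residue_eq_zero_iff, Points.residue_eq_zero_iff_nnnorm]
      exact hres k
    · have h0 := congrArg (fun X : M2 O => j (ρ' k * X).trace) (hline.mul g hg h hh)
      simp only [mul_zero, Matrix.trace_zero, map_zero] at h0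
      rw [trace_mul_sub_smul ρ'] at h0
      simp only [map_add j, map_sub j, map_mul j, htr, hdet] at h0
      rw [trace_mul_sub_smul ρ]
      exact h0
  · have h0 := congrArg j (hline.trace g hg)
    rw [htr, map_mul, map_add, map_one, hdet] at h0
    exact h0

/-- The plane representation is continuous for the powers of two. -/
private theorem planeRep_continuous {M : ℕ} [NeZero M] [NeZero (2 * M)] {O : Type} [CommRing O]
    [IsDomain O] [IsDiscreteValuationRing O] [CharZero O] [Algebra ℤ_[2] O]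
    (θ : FullHecke (2 * M) →+* O) : ∀ n : ℕ, ∃ F : IntermediateField ℚ QBar, FiniteDimensional ℚ F ∧
      ∀ g : GQ, (∀ y ∈ F, g y = y) → ∀ i k,
        (2 : O) ^ n ∣ planeRep θ g i k - (1 : M2 O) i k := by
  intro n
  obtain ⟨F, hF, hFc⟩ := (model (2 * M)).gal_continuous n
  refine ⟨F, hF, fun g hg i k => ?_⟩
  have h1 := (model (2 * M)).eigenMatrix_congr (algebraMap ℤ_[2] O) θ (g := 1) (h := g)
    (by rw [inv_one, one_mul]; exact hFc g hg) i k
  have e1 : ∀ τ, (model (2 * M)).eigenMatrix (algebraMap ℤ_[2] O) θ τ = planeRep θ τ := fun _ => rfl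
  rwa [e1, e1, map_one (planeRep θ), Nat.cast_ofNat] at h1

/-- A nonzero integer is `2` to its two-adic valuation times an odd number. -/
private theorem exists_two_pow_mul_odd {Δ : ℤ} (hΔ0 : Δ ≠ 0) :
    ∃ w : ℤ, Δ = 2 ^ padicValInt 2 Δ * w ∧ ¬ (2 : ℤ) ∣ w := by
  obtain ⟨w, hΔ⟩ := (padicValInt_dvd_iff (p := 2) (padicValInt 2 Δ) Δ).mpr (Or.inr le_rfl)
  push_cast at hΔ
  refine ⟨w, hΔ, fun ⟨c, hc⟩ => ?_⟩
  have := (padicValInt_dvd_iff (p := 2) (padicValInt 2 Δ + 1) Δ).mp
    ⟨c, by push_cast; rw [pow_succ, mul_assoc, ← hc]; exact hΔ⟩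
  omega

/-- A character of the Hecke algebra of level `2 * M` takes values in a discrete valuation ring
finite over `ℤ₂` and mapped to `A2`. -/
private theorem exists_coeff {M : ℕ} [NeZero (2 * M)] (θK : FullHecke (2 * M) →+* K2) :
    ∃ (O : Type) (_ : CommRing O) (_ : IsDomain O) (_ : IsDiscreteValuationRing O) (_ : CharZero O)
      (_ : Algebra ℤ_[2] O) (_ : Module.Finite ℤ_[2] O) (j : O →+* A2)
      (θO : FullHecke (2 * M) →+* O),
      Function.Injective (algebraMap ℤ_[2] O) ∧ (2 : O) ∈ IsLocalRing.maximalIdeal O ∧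
        ∀ t, ((j (θO t) : A2) : K2) = θK t := by
  have : Module.Finite ℤ (FullHecke (2 * M)) := IntegralStructure.heckeAlgebra_finite (2 * M) 2 ∅
  have : Finite (IsLocalRing.ResidueField ℤ_[2]) :=
    Finite.of_equiv _ (PadicInt.residueField (p := 2)).symm.toEquiv
  obtain ⟨O, i1, i2, i3, -, -, i6, i7, i8, i9, j₀, θO, hinj, hj₀, hcomm, hθO⟩ :=
    GaloisReps.exists_coeffExt ℤ_[2] (toK2.symm.toRingHom.comp θK)
  have hjA : ∀ y : O, (toK2.toRingHom.comp j₀) y ∈ A2 := fun y => toK2_mem <| by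
    obtain ⟨P, hP, h0⟩ := Algebra.IsIntegral.isIntegral (R := ℤ_[2]) y
    exact ⟨P, hP, by rw [← hcomm, ← Polynomial.hom_eval₂, h0, map_zero]⟩
  refine ⟨O, i1, i2, i3, i6, i7, i8, (toK2.toRingHom.comp j₀).codRestrict A2.toSubring hjA, θO,
    hinj, ?_, fun t => ?_⟩
  · rw [← map_ofNat (algebraMap ℤ_[2] O) 2]
    exact map_nonunit (algebraMap ℤ_[2] O) _ (by
      rw [PadicInt.maximalIdeal_eq_span_p]; exact Ideal.mem_span_singleton_self _)
  · show toK2 (j₀ (θO t)) = _
    rw [← RingHom.comp_apply j₀, hθO]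
    exact toK2.apply_symm_apply _

/-- The representation attached to a Hecke character of level dividing `2 * M` has the traces of a
plane of level `2 * M`. -/
private theorem exists_plane_trace {L M : ℕ} [NeZero L] [NeZero M] [NeZero (2 * M)]
    (hLM : L ∣ 2 * M) (S : Finset ℕ) (θ : CuspForm.heckeAlgebra L 2 (↑S : Set ℕ) →+* K2)
    {ρ : GQ →* M2 A2} (hcρ : Continuous2 ρ)
    (hfrob : ∀ l (hl : l.Prime) (hlL : ¬ l ∣ L) (hlS : l ∉ (↑S : Set ℕ)), l ≠ 2 →
      ∀ B : ValuationSubring QBar, B.LiesOverPrime l → ∀ σ : GQ, B.IsFrobeniusAt σ l →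
        (((ρ σ).trace : A2) : K2) = θ (CuspForm.heckeAlgebra.T hl hlL hlS) ∧
          (ρ σ).det = (l : A2)) :
    ∃ (O : Type) (_ : CommRing O) (_ : IsDomain O) (_ : IsDiscreteValuationRing O) (_ : CharZero O)
      (_ : Algebra ℤ_[2] O) (_ : Module.Finite ℤ_[2] O) (j : O →+* A2)
      (θO : FullHecke (2 * M) →+* O),
      Function.Injective (algebraMap ℤ_[2] O) ∧ (2 : O) ∈ IsLocalRing.maximalIdeal O ∧
        ∀ g, j (planeRep θO g).trace = (ρ g).trace := by
  obtain ⟨rest, -, hrest⟩ := Newforms.exists_restrictHom (M := 2 * M) (R := L) hLM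
    (S := (↑S : Set ℕ)) (S' := ↑(S ∪ (2 * M).primeFactors))
    (Finset.coe_subset.mpr Finset.subset_union_left)
    (fun q hq hqN => Finset.mem_union_right _ (Nat.mem_primeFactors.mpr ⟨hq, hqN, NeZero.ne _⟩))
  obtain ⟨θK, hθK⟩ := GaloisReps.exists_extend_character _ (θ.comp rest)
  obtain ⟨O, i1, i2, i3, i6, i7, i8, j, θO, hinj, h2O', hjθ⟩ := exists_coeff θK
  refine ⟨O, i1, i2, i3, i6, i7, i8, j, θO, hinj, h2O', ?_⟩
  have h2O : ((2 : ℕ) : O) ∈ IsLocalRing.maximalIdeal O := by exact_mod_cast h2O'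
  have hcj : Continuous2 (mapRep j (planeRep θO)) :=
    continuous2_mapRep j (planeRep_continuous θO)
  intro g
  rw [← Points.trace_mapRep]
  refine Points.trace_eq_of_frobenius_A2 hcj hcρ
    (ClassBound.negligible_finite (S ∪ (2 * M).primeFactors).finite_toSet)
    (fun l hl hlU B hB σ hσ => ?_) g
  rw [Finset.mem_coe, Finset.mem_union, not_or] at hlU
  have hlM : ¬ l ∣ 2 * M := fun h => hlU.2 (Nat.mem_primeFactors.mpr ⟨hl, h, NeZero.ne _⟩)
  have hl2 : l ≠ 2 := fun h => hlM (h ▸ dvd_mul_right 2 M)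
  have hlN : ¬ l ∣ 2 * M * 2 := fun h => (hl.dvd_mul.mp h).elim hlM fun h' =>
    hl2 ((Nat.prime_dvd_prime_iff_eq hl Nat.prime_two).mp h')
  have hlL : ¬ l ∣ L := fun h => hlM (h.trans hLM)
  have hlS : l ∉ (↑S : Set ℕ) := hlU.1
  have hlS' : l ∉ (↑(S ∪ (2 * M).primeFactors) : Set ℕ) := by simp [hlU.1, hlU.2]
  obtain ⟨ht, -⟩ := hfrob l hl hlL hlS hl2 B hB σ hσ
  rw [Points.trace_mapRep]
  refine Subtype.ext (Eq.trans ?_ ht.symm)
  rw [trace_planeRep_frobenius θO h2O hl hlN hB hσ, hjθ, ← GaloisReps.toFull_T hl hlM hlS', hθK,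
    RingHom.comp_apply, hrest l hl hlM hlS']

/-- Equal traces give equal determinants in rank two, two being a nonzero divisor. -/
private theorem det_eq_of_trace_eq {O : Type} [CommRing O] (j : O →+* A2) {ρ₀ : GQ →* M2 O}
    {ρ : GQ →* M2 A2} (htr : ∀ g, j (ρ₀ g).trace = (ρ g).trace) (g : GQ) :
    j (ρ₀ g).det = (ρ g).det := by
  refine mul_left_cancel₀ (two_ne_zero (α := A2)) ?_
  rw [RT.Glue.two_mul_det (ρ g), ← map_ofNat j, ← map_mul, RT.Glue.two_mul_det (ρ₀ g), map_sub,
    map_mul, ← map_mul ρ₀, htr, htr, map_mul ρ]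

/-- If the trace of `X` is `n` modulo the maximal ideal, its reduction has trace `n`. -/
private theorem trace_residue_eq {O : Type} [CommRing O] [IsLocalRing O] (X : M2 O) {n : ℕ}
    (h : X.trace - (n : O) ∈ IsLocalRing.maximalIdeal O) :
    ((IsLocalRing.residue O).mapMatrix X).trace = (n : IsLocalRing.ResidueField O) := by
  have := (IsLocalRing.residue_eq_zero_iff _).mpr h
  rw [map_sub, map_natCast, sub_eq_zero] at this
  rw [← this]
  exact (AddMonoidHom.map_trace (IsLocalRing.residue O).toAddMonoidHom _).symm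

/-! ## The line -/

/-- **The line at two.** On the decomposition group at `2` the representation has a line with
character `ε det ρ` and quotient character `ε`, and `ε` is trivial on inertia. -/
theorem exists_lineAt_two {L : ℕ} [NeZero L] (h4 : ¬ 4 ∣ L) (S : Finset ℕ)
    (θ : CuspForm.heckeAlgebra L 2 (↑S : Set ℕ) →+* K2) (ρ : GQ →* M2 A2)
    {r : GQ →* (M2 (ZMod 2))ˣ} (hr : Function.Surjective r) {Δ : ℤ}
    (hodd : Odd (padicValInt 2 Δ)) {x : QBar} (hx : x ^ 2 = (Δ : QBar))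
    (hrx : ∀ g ∈ inG 2, r g = 1 ↔ g x = x)
    (hcont : ∀ M : ℕ, ∃ F : IntermediateField ℚ QBar, FiniteDimensional ℚ F ∧
      ∀ g : GQ, (∀ y ∈ F, g y = y) → ∀ i j, (2 : A2) ^ M ∣ ρ g i j - (1 : M2 A2) i j)
    (hfrob : ∀ l (hl : l.Prime) (hlL : ¬ l ∣ L) (hlS : l ∉ (↑S : Set ℕ)), l ≠ 2 →
      ∀ B : ValuationSubring QBar, B.LiesOverPrime l → ∀ σ : GQ, B.IsFrobeniusAt σ l →
        (((ρ σ).trace : A2) : K2) = θ (CuspForm.heckeAlgebra.T hl hlL hlS) ∧
          (ρ σ).det = (l : A2))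
    (hdet : ∀ σ : GQ, ∀ m n : ℕ, (∀ ζ : QBar, ζ ^ (2 ^ n) = 1 → σ ζ = ζ ^ m) →
      (2 : A2) ^ n ∣ (ρ σ).det - (m : A2))
    (hres : ∀ g : GQ,
      ‖(((ρ g).trace : A2) : K2) - ((r g : M2 (ZMod 2)).trace.val : K2)‖₊ < 1) :
    ∃ ε : GQ → A2, LineAt ρ (dec 2) ε ∧ ∀ t ∈ inG 2, ε t = 1 := by
  classical
  -- the valuation of `Δ`
  have hΔ0 : Δ ≠ 0 := fun h => by simp [h] at hodd
  obtain ⟨w, hΔ, hw⟩ := exists_two_pow_mul_odd hΔ0
  set A := padicPlace 2
  have hA : A.LiesOverPrime 2 := CFT.Local.padicPlace_liesOverPrime 2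
  -- the level and the character
  obtain ⟨M, hM0, h2M, h9, hLM⟩ := exists_level h4
  have : NeZero M := ⟨hM0⟩
  have : NeZero (2 * M) := ⟨mul_ne_zero two_ne_zero hM0⟩
  obtain ⟨O, _, _, _, _, _, _, j, θO, hinj, h2O', htr⟩ :=
    exists_plane_trace hLM S θ (continuous2_of_dvd hcont) hfrob
  set ρ₀ := planeRep (M := M) θO
  have hcont₀ : ∀ n : ℕ, ∃ F : IntermediateField ℚ QBar, FiniteDimensional ℚ F ∧
      ∀ g : GQ, (∀ y ∈ F, g y = y) → ∀ i k, (2 : O) ^ n ∣ ρ₀ g i k - (1 : M2 O) i k :=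
    planeRep_continuous θO
  have hdetj : ∀ g, j (ρ₀ g).det = (ρ g).det := det_eq_of_trace_eq j htr
  -- residual traces
  have hres₀ : ∀ g, (ρ₀ g).trace - ((r g : M2 (ZMod 2)).trace.val : O) ∈
      IsLocalRing.maximalIdeal O := fun g => by
    refine mem_maximal_of_map j ?_
    rw [map_sub, map_natCast, htr, ← IsLocalRing.residue_eq_zero_iff,
      Points.residue_eq_zero_iff_nnnorm]
    exact hres g
  have := charP_residue h2O'
  set res := IsLocalRing.residue O
  let ρb : GQ →* M2 (IsLocalRing.ResidueField O) := res.mapMatrix.toMonoidHom.comp ρ₀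
  have hresb : ∀ h, (ρb h).trace =
      ((r h : M2 (ZMod 2)).trace.val : IsLocalRing.ResidueField O) := fun h =>
    trace_residue_eq (ρ₀ h) (hres₀ h)
  have hρb : ∀ h, ρb h = 1 ↔ ∀ i k, (ρ₀ h - 1 : M2 O) i k ∈ IsLocalRing.maximalIdeal O :=
    fun h => residue_mapMatrix_eq_one_iff (ρ₀ h)
  obtain ⟨τ, hτ, hτx⟩ := exists_moving hA hΔ hodd hw hx
  have hτb : ρb τ ≠ 1 := fun h => hτx ((hrx τ hτ).mp ((eq_one_iff hr hresb τ).mp h))
  -- the fixed row
  obtain ⟨w₀, hw₀, hfix⟩ := exists_fixed_row (A := A) θO hinj h2O' hA h2M h9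
    (fun σ hσ i k => by
      rw [← map_mul]
      exact (hρb (σ * σ)).mp ((eq_one_iff hr hresb _).mpr ((hrx _ (mul_mem hσ hσ)).mpr
        (by rw [AlgEquiv.mul_apply, apply_apply_of_sq hx]))) i k)
    ⟨τ, hτ, by
      by_contra! h
      exact hτb ((hρb τ).mpr h)⟩
  -- triangular form
  have hnorm : ∀ g ∈ A.decompositionSubgroup ℚ, ∀ σ ∈ A.inertiaSubgroupIn ℚ,
      g * σ * g⁻¹ ∈ A.inertiaSubgroupIn ℚ := fun g hg σ hσ => by
    have := (mem_inertia_smul_iff (g := g) (A := A)).mpr hσ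
    rwa [mem_decomposition_iff.mp hg] at this
  obtain ⟨ρ', htr', hdet', hdvd', hI', hD'⟩ := exists_triangular ρ₀ (A.inertiaSubgroupIn ℚ)
    (A.decompositionSubgroup ℚ : Set GQ) hnorm hw₀ hfix ⟨τ, hτ, fun h => hτb (by
      show res.mapMatrix (ρ₀ τ) = 1
      rw [h, map_one])⟩
  have hres' : ∀ g, (ρ' g).trace - ((r g : M2 (ZMod 2)).trace.val : O) ∈
      IsLocalRing.maximalIdeal O := fun g => by rw [htr']; exact hres₀ g
  -- continuity is invariant under conjugation
  have hcont' : ∀ n : ℕ, ∃ F : IntermediateField ℚ QBar, FiniteDimensional ℚ F ∧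
      ∀ g : GQ, (∀ y ∈ F, g y = y) → ∀ i k, (2 : O) ^ n ∣ ρ' g i k - (1 : M2 O) i k := by
    intro n
    obtain ⟨F, hF, hFc⟩ := hcont₀ n
    exact ⟨F, hF, fun g hg i k => hdvd' g i k _ (hFc g hg)⟩
  have hdetO : ∀ (g : GQ) (m n : ℕ), (∀ t : QBar, t ^ (2 ^ n) = 1 → g t = t ^ m) →
      (2 : O) ^ n ∣ (ρ' g).det - (m : O) := fun g m n h => by
    refine two_pow_dvd_of_map j n ?_
    rw [map_sub, map_natCast, hdet', hdetj]
    exact hdet g m n h
  have hsq' : ∀ g ∈ A.decompositionSubgroup ℚ, ρ' g 1 1 * ρ' g 1 1 = 1 := fun g hg =>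
    sq_eq_one hinj h2O' hA ρ' hr hres' hΔ hodd hw hx hrx hI' hD' hcont' hdetO g hg
  -- transfer
  refine ⟨fun g => j (ρ' g 1 1), ?_, fun t ht => by
    show j (ρ' t 1 1) = 1
    rw [(hI' t ht).2, map_one]⟩
  have hline := lineAt_of_triangular ρ' (A.decompositionSubgroup ℚ : Set GQ) hD' hsq'
  have hdec : dec 2 = (A.decompositionSubgroup ℚ : Set GQ) := dif_pos Nat.prime_two
  rw [hdec]
  exact lineAt_of_map j hr hres (fun g => by rw [htr', htr]) (fun g => by rw [hdet', hdetj]) hline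

end Fermat.Agent.LT.AtTwo

end
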